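import Fermat.Agent.ThreeFive.Semistable
import Mathlib.NumberTheory.LegendreSymbol.QuadraticReciprocity

/-! A criterion for irreducibility of the five-torsion.

If the five-torsion is reducible, `c₄ ^ 3 s = Δ (s ^ 2 + 10 s + 5) ^ 3` for some rational `s`, so a
prime dividing `c₄` (hence not `Δ`) divides `(n + 5 d) ^ 2 - 20 d ^ 2` for `s = n / d` and five is a
square modulo it.
-/

set_option autoImplicit false

open WeierstrassCurve

namespace Fermat.Agent.General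

/-- Five is not a square modulo an odd prime congruent to `±2` modulo five. -/
theorem not_isSquare_five_of_mod {ℓ : ℕ} [Fact ℓ.Prime] (hℓ2 : ℓ ≠ 2)
    (h5 : ℓ % 5 = 2 ∨ ℓ % 5 = 3) : ¬ IsSquare (5 : ZMod ℓ) := by
  have hsq : ∀ x : ZMod 5, x * x ≠ 2 ∧ x * x ≠ 3 := by decide
  have : Fact (Nat.Prime 5) := ⟨by norm_num⟩
  intro h
  have h' : IsSquare (ℓ : ZMod 5) :=
    (ZMod.exists_sq_eq_prime_iff_of_mod_four_eq_one (p := 5) (q := ℓ) (by norm_num) hℓ2).2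
      (by exact_mod_cast h)
  obtain ⟨r, hr⟩ := h'
  rw [← ZMod.natCast_mod ℓ 5] at hr
  rcases h5 with h5 | h5 <;> rw [h5] at hr
  · exact (hsq r).1 hr.symm
  · exact (hsq r).2 hr.symm

/-- A semistable model whose `c₄` has a prime factor inert in `ℚ (√5)` has irreducible
five-torsion. -/
theorem modRepIsIrreducible_five_of_dvd_c4 (W : WeierstrassCurve ℤ) (hΔ : W.Δ ≠ 0)
    (hW : W.IsSemistableModel) {ℓ : ℕ} (hℓ : ℓ.Prime) (hℓ2 : ℓ ≠ 2) (h5 : ℓ % 5 = 2 ∨ ℓ % 5 = 3)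
    (hd : (ℓ : ℤ) ∣ W.c₄) : W.ModRepIsIrreducible 5 := by
  by_contra hne
  have : Fact ℓ.Prime := ⟨hℓ⟩
  set E : WeierstrassCurve.Affine ℚ := W.map (Int.castRingHom ℚ) with hE
  have hEc : E.c₄ = (W.c₄ : ℚ) := W.map_c₄ _
  have hEΔ : E.Δ = (W.Δ : ℚ) := W.map_Δ _
  have hΔE : E.Δ ≠ 0 := by rw [hEΔ]; exact_mod_cast hΔ
  have hcE : E.c₄ ≠ 0 := by rw [hEc]; exact_mod_cast ThreeFive.c4_ne_zero W hΔ hW
  obtain ⟨s, hs⟩ := ThreeFive.exists_hauptmodul5 E hΔE hcE hne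
  rw [hEc, hEΔ] at hs
  have hZ : W.c₄ ^ 3 * (s.num * (s.den : ℤ) ^ 5) =
      W.Δ * (s.num ^ 2 + 10 * s.num * s.den + 5 * (s.den : ℤ) ^ 2) ^ 3 := by
    have hn : (s.num : ℚ) = s * s.den := (Rat.mul_den_eq_num s).symm
    have : (W.c₄ : ℚ) ^ 3 * ((s.num : ℚ) * (s.den : ℚ) ^ 5) =
        (W.Δ : ℚ) * ((s.num : ℚ) ^ 2 + 10 * s.num * s.den + 5 * (s.den : ℚ) ^ 2) ^ 3 := by
      rw [hn]
      linear_combination (s.den : ℚ) ^ 6 * hs
    exact_mod_cast this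
  have hc : (W.c₄ : ZMod ℓ) = 0 := (ZMod.intCast_zmod_eq_zero_iff_dvd _ _).2 hd
  have hΔℓ : (W.Δ : ZMod ℓ) ≠ 0 := fun h =>
    hW ℓ hℓ ((ZMod.intCast_zmod_eq_zero_iff_dvd _ _).1 h) hd
  have hq : ((s.num : ZMod ℓ)) ^ 2 + 10 * s.num * s.den + 5 * (s.den : ZMod ℓ) ^ 2 = 0 := by
    have h := congrArg (Int.cast : ℤ → ZMod ℓ) hZ
    push_cast at h
    rw [hc] at h
    simpa [hΔℓ] using h.symm
  by_cases hden : (s.den : ZMod ℓ) = 0
  · rw [hden] at hq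
    have hnum : (s.num : ZMod ℓ) = 0 := by simpa using hq
    have h1 : ℓ ∣ s.num.natAbs :=
      Int.natCast_dvd.1 ((ZMod.intCast_zmod_eq_zero_iff_dvd _ _).1 hnum)
    exact Nat.not_coprime_of_dvd_of_dvd hℓ.one_lt h1 ((ZMod.natCast_eq_zero_iff _ _).1 hden)
      s.reduced
  · refine not_isSquare_five_of_mod hℓ2 h5
      ⟨((s.num : ZMod ℓ) + 5 * s.den) / (2 * s.den), ?_⟩
    have h2 : (2 : ZMod ℓ) ≠ 0 := fun h => hℓ2
      ((Nat.prime_dvd_prime_iff_eq hℓ Nat.prime_two).1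
        ((ZMod.natCast_eq_zero_iff 2 ℓ).1 (by exact_mod_cast h)))
    field_simp
    linear_combination -hq

end Fermat.Agent.General
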