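import Fermat.Agent.General.FiveIntegral
import Fermat.Agent.Switch.Congruence

/-! A member of the five-pencil with multiplicative reduction at two. -/

set_option autoImplicit false

open WeierstrassCurve Fermat.Agent.Switch

namespace Fermat.Agent.General

/-- A curve supersingular at two with `32 ∤ c₄` is congruent modulo five to a semistable curve
with even discriminant which inherits good reduction at five. -/
theorem exists_five_member (W : WeierstrassCurve ℤ) (hΔ : W.Δ ≠ 0) (hW : W.IsSemistableModel)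
    (h2 : ¬ (2 : ℤ) ∣ W.Δ) (h4 : (16 : ℤ) ∣ W.c₄) (h32 : ¬ (32 : ℤ) ∣ W.c₄)
    (h5 : W.ModRepIsIrreducible 5) :
    ∃ W' : WeierstrassCurve ℤ, W'.Δ ≠ 0 ∧ W'.IsSemistableModel ∧ (2 : ℤ) ∣ W'.Δ ∧
      (¬ (5 : ℤ) ∣ W.Δ → ¬ (5 : ℤ) ∣ W'.Δ) ∧
      ∀ ℓ : ℕ, ℓ.Prime → W.IsGoodPrimeFor ℓ → W'.IsGoodPrimeFor ℓ → ℓ ≠ 5 →
        (5 : ℤ) ∣ W'.apOfModel ℓ - W.apOfModel ℓ := by
  obtain ⟨d⟩ := exists_pencilData (C4 := (W.c₄ : ℚ)) (C6 := (W.c₆ : ℚ)) (by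
    have hrel : (W.c₄ : ℚ) ^ 3 - (W.c₆ : ℚ) ^ 2 = 1728 * (W.Δ : ℚ) := by
      exact_mod_cast W.c_relation.symm
    rw [hrel]; exact mul_ne_zero (by norm_num) (Int.cast_ne_zero.2 hΔ))
  obtain ⟨M, W', hΔ', hss, h2', hc4, hc6, hiff⟩ := exists_five_integral W hΔ hW h2 h4 h32 d
  refine ⟨W', hΔ', hss, h2', fun h h' => ?_, fun ℓ hℓ hg hg' hne => ?_⟩
  · have h15 : ((5 : ℕ) : ℤ) ∣ 15 * W.Δ := dvd_mul_of_dvd_left (by norm_num) _
    exact h ((hiff 5 Nat.prime_five (by norm_num) h15).1 h')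
  · exact dvd_apOfModel_sub_of_pencil W W' hΔ hΔ' h5 d two_ne_zero hc4 hc6 hℓ hg hg' hne

end Fermat.Agent.General
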