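import Fermat.Agent.General.ThreeMember
import Fermat.Agent.General.FiveMember
import Fermat.Agent.General.Criterion
import Fermat.Agent.Wiring.RootsFinal
import Fermat.Agent.ThreeFive.Semistable
import Fermat.Agent.Switch3.Congruent
import Fermat.Agent.S51

/-! Modularity of every semistable integral model (`exactConductorLevel`): semistable models with
irreducible three-torsion pass through a member of the Hesse pencil and, when that is good at two,
through a member of the five-pencil with multiplicative reduction at two; the others through the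
switch at five. -/

set_option autoImplicit false
set_option maxHeartbeats 400000

open WeierstrassCurve

namespace Fermat.Agent.General

/-- Modularity of exact conductor level passes between curves with congruent traces modulo
`p = 3` or `5`, when good reduction at `p` is inherited. -/
theorem exact_of_congr {p : ℕ} (hp : p = 3 ∨ p = 5) {W W' : WeierstrassCurve ℤ} (hΔ : W.Δ ≠ 0)
    (hW : W.IsSemistableModel) (hirr : W.ModRepIsIrreducible p)
    (hgood : ¬ (p : ℤ) ∣ W.Δ → ¬ (p : ℤ) ∣ W'.Δ)
    (hcong : ∀ ℓ : ℕ, ℓ.Prime → W.IsGoodPrimeFor ℓ → W'.IsGoodPrimeFor ℓ → ℓ ≠ p →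
      (p : ℤ) ∣ W'.apOfModel ℓ - W.apOfModel ℓ)
    (h : Mlc1IsModularModelOfExactConductorLevel W') :
    Mlc1IsModularModelOfExactConductorLevel W := by
  have hpp : p.Prime := by rcases hp with rfl | rfl <;> norm_num
  obtain ⟨N, hN, hsq, hsupp, hmod⟩ := h
  have : NeZero N := ⟨hN.ne'⟩
  have hres : W.IsResiduallyModularOfLevel p N :=
    Wiring.isResiduallyModularOfLevel_of_congr hpp hmod
      (fun ℓ hℓ hℓN hd => hℓN ((hsupp ℓ hℓ).2 hd)) hcong
  exact Lifting.liftingTwo_of_lowering Wiring.s35Statement Wiring.Roots.loweringAway p hp W hΔ hW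
    hirr N hres hsq fun hd hpN => hgood hd ((hsupp p hpp).1 hpN)

/-- Semistable models with multiplicative reduction at two. -/
theorem exact_of_two_dvd (W : WeierstrassCurve ℤ) (hΔ : W.Δ ≠ 0) (hW : W.IsSemistableModel)
    (h2 : (2 : ℤ) ∣ W.Δ) : Mlc1IsModularModelOfExactConductorLevel W :=
  Wiring.exact_of_residual_and_lifting Wiring.residualThree Wiring.Roots.liftingTwo W hΔ hW h2

/-- Semistable models with irreducible three-torsion. -/
theorem exact_of_irreducible_three (W : WeierstrassCurve ℤ) (hΔ : W.Δ ≠ 0)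
    (hW : W.IsSemistableModel) (h3 : W.ModRepIsIrreducible 3) :
    Mlc1IsModularModelOfExactConductorLevel W := by
  by_cases h2 : (2 : ℤ) ∣ W.Δ
  · exact exact_of_two_dvd W hΔ hW h2
  obtain ⟨W', hΔ', hW', -, hgood3, hcong, hcase⟩ := exists_three_member W hΔ hW h2 h3
  refine exact_of_congr (p := 3) (Or.inl rfl) hΔ hW h3 (by exact_mod_cast hgood3)
    (by exact_mod_cast hcong) ?_
  rcases hcase with h2' | ⟨h2', h16, h32, ℓ, hℓ, hℓ2, hℓ5, hℓc⟩
  · exact exact_of_two_dvd W' hΔ' hW' h2'
  have h5 := modRepIsIrreducible_five_of_dvd_c4 W' hΔ' hW' hℓ hℓ2 hℓ5 hℓc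
  obtain ⟨W'', hΔ'', hW'', h2'', hgood5, hcong5⟩ :=
    exists_five_member W' hΔ' hW' h2' h16 h32 h5
  exact exact_of_congr (p := 5) (Or.inr rfl) hΔ' hW' h5 (by exact_mod_cast hgood5)
    (by exact_mod_cast hcong5) (exact_of_two_dvd W'' hΔ'' hW'' h2'')

/-- Every semistable integral model is modular of exact conductor level. -/
theorem exactConductorLevel (W : WeierstrassCurve ℤ) (hΔ : W.Δ ≠ 0) (hW : W.IsSemistableModel) :
    Mlc1IsModularModelOfExactConductorLevel W := by
  rcases S51.result W hΔ hW with h3 | h5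
  · exact exact_of_irreducible_three W hΔ hW h3
  obtain ⟨W', hΔ', hW', h3', hcong, -, hgood⟩ :=
    Switch3.exists_switched_curve_two_five W hΔ hW h5
  exact exact_of_congr (p := 5) (Or.inr rfl) hΔ hW h5 (fun h => hgood.2 h)
    (by exact_mod_cast hcong) (exact_of_irreducible_three W' hΔ' hW' h3')

/-- Residual modularity at three of squarefree level. -/
theorem residual_modular_three (W : WeierstrassCurve ℤ) (hΔ : W.Δ ≠ 0) (hW : W.IsSemistableModel)
    (_h3 : W.ModRepIsIrreducible 3) :
    ∃ M : ℕ, 0 < M ∧ Squarefree M ∧ W.IsResiduallyModularOfLevel 3 M := by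
  obtain ⟨N, hN, hsq, hsupp, hmod⟩ := exactConductorLevel W hΔ hW
  exact ⟨N, hN, hsq, Wiring.isResiduallyModularOfLevel_of_congr Nat.prime_three hmod
    (fun ℓ hℓ hℓN hd => hℓN ((hsupp ℓ hℓ).2 hd)) fun ℓ _ _ _ _ => by rw [sub_self]; exact dvd_zero _⟩

end Fermat.Agent.General
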