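/-
An integral eigensystem with character `χ₋₃` attached to a semistable model: the newform of the
curve has integer coefficients, and its mod three reduction is realised by the recursive system.
-/
import Fermat.Agent.General.Main
import Fermat.Agent.S49
import Fermat.Agent.Integral.Eigenform
import Fermat.Agent.Newform.AtkinLehner
import Fermat.Agent.Newform.AtkinStrongMult
import Fermat.Agent.Newform.Descent
import Fermat.Prelude.Def_CuspForm_IntegralLattice

set_option autoImplicit false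

noncomputable section

open CongruenceSubgroup ModularFormClass EisensteinWeightOne

namespace Fermat.Agent.General

/-! ### Recursive eigensystems with prescribed prime values -/

section Recursive

variable {R : Type*} [CommRing R]

/-- The values at the powers of one prime. -/
def eigenSeq (x e : R) : ℕ → R
  | 0 => 1
  | 1 => x
  | k + 2 => x * eigenSeq x e (k + 1) - e * eigenSeq x e k

/-- The eigensystem with prime values `x` and character values `e`. -/
def eigenExtend (x e : ℕ → R) (n : ℕ) : R :=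
  if n = 0 then 0 else ∏ p ∈ n.primeFactors, eigenSeq (x p) (e p) (n.factorization p)

theorem eigenExtend_mul {x e : ℕ → R} {m n : ℕ} (h : m.Coprime n) :
    eigenExtend x e (m * n) = eigenExtend x e m * eigenExtend x e n := by
  rcases eq_or_ne m 0 with rfl | hm
  · simp [eigenExtend]
  rcases eq_or_ne n 0 with rfl | hn
  · simp [eigenExtend]
  rw [eigenExtend, eigenExtend, eigenExtend, if_neg (mul_ne_zero hm hn), if_neg hm, if_neg hn,
    h.primeFactors_mul, Finset.prod_union h.disjoint_primeFactors]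
  congr 1 <;> refine Finset.prod_congr rfl fun p hp => ?_
  · rw [Nat.factorization_eq_of_coprime_left h (List.mem_toFinset.mp hp)]
  · rw [Nat.factorization_eq_of_coprime_right h (List.mem_toFinset.mp hp)]

theorem eigenExtend_prime_pow {x e : ℕ → R} {p : ℕ} (hp : p.Prime) (k : ℕ) :
    eigenExtend x e (p ^ k) = eigenSeq (x p) (e p) k := by
  rcases eq_or_ne k 0 with rfl | hk
  · simp [eigenExtend, eigenSeq]
  rw [eigenExtend, if_neg (pow_ne_zero _ hp.ne_zero), Nat.primeFactors_prime_pow hk hp,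
    Finset.prod_singleton, hp.factorization_pow, Finsupp.single_eq_same]

theorem eigenExtend_prime {x e : ℕ → R} {p : ℕ} (hp : p.Prime) :
    eigenExtend x e p = x p := by
  have h := eigenExtend_prime_pow (x := x) (e := e) hp 1
  rw [pow_one] at h
  exact h

theorem isEigensystem_eigenExtend (x e : ℕ → R) :
    FormalHecke.IsEigensystem e (eigenExtend x e) := by
  refine ⟨by simp [eigenExtend], fun ℓ hℓ n => ?_⟩
  rcases eq_or_ne n 0 with rfl | hn
  · simp [eigenExtend]
  obtain ⟨k, m, hm, rfl⟩ := Nat.exists_eq_pow_mul_and_not_dvd hn ℓ hℓ.ne_one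
  have hcop : ∀ j, Nat.Coprime (ℓ ^ j) m := fun j => (hℓ.coprime_iff_not_dvd.mpr hm).pow_left j
  rw [← mul_assoc, ← pow_succ', eigenExtend_mul (hcop _), eigenExtend_mul (hcop _),
    eigenExtend_prime_pow hℓ, eigenExtend_prime_pow hℓ, eigenExtend_prime hℓ]
  rcases k with _ | k
  · rw [pow_zero, one_mul, if_neg hm]
    simp [eigenSeq]
  · rw [if_pos (dvd_mul_of_dvd_left (dvd_pow_self ℓ k.succ_ne_zero) m),
      show ℓ ^ (k + 1) * m / ℓ = ℓ ^ k * m by
        rw [pow_succ', mul_assoc, Nat.mul_div_cancel_left _ hℓ.pos],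
      eigenExtend_mul (hcop _), eigenExtend_prime_pow hℓ]
    simp only [eigenSeq]
    ring

end Recursive

/-! ### The newform of a curve has integer coefficients -/

/-- A newform of squarefree level whose good eigenvalues at all but finitely many primes are
integers has integer coefficients. -/
theorem exists_int_qCoeff {M : ℕ} [NeZero M] (hM : Squarefree M)
    {g : CuspForm (Gamma0 M) 2} (hg : g.IsNewform) (S : Finset ℕ)
    (hS : ∀ ℓ : ℕ, ℓ.Prime → ℓ ∉ S → ∃ z : ℤ, qCoeff g ℓ = (z : ℂ)) (n : ℕ) :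
    ∃ z : ℤ, qCoeff g n = (z : ℂ) := by
  suffices h : ∀ p : ℕ, p.Prime → qCoeff g p ∈ (Int.castRingHom ℂ).range by
    obtain ⟨z, hz⟩ := Integral.qCoeff_mem_of_prime hg.1 _ h n
    exact ⟨z, hz.symm⟩
  intro p hp
  by_cases hpM : p ∣ M
  · have h2 : ¬ p ^ 2 ∣ M := fun h =>
      hp.not_isUnit (hM p (by rwa [pow_two] at h))
    rcases sq_eq_one_iff.mp ((Newform.newformBadPrimeCoeff M g hg p hp hpM).1 h2) with h | h
    · exact ⟨1, by simp [h]⟩
    · exact ⟨-1, by simp [h]⟩
  have hfix : ∀ σ : ℂ →+* ℂ, σ (qCoeff g p) = qCoeff g p := fun σ => by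
    obtain ⟨h, hh⟩ := Integral.exists_cuspForm_conj σ g
    have hc : ∀ m, qCoeff h m = σ (qCoeff g m) := fun m => by
      simp only [qCoeff]
      rw [hh, PowerSeries.coeff_map]
    have hE : h.IsNormalizedEigenform :=
      { qCoeff_one := by rw [hc, hg.1.qCoeff_one, map_one]
        qCoeff_mul_of_coprime := fun a b hab => by
          rw [hc, hc, hc, hg.1.qCoeff_mul_of_coprime a b hab, map_mul]
        qCoeff_prime_pow_of_not_dvd := fun q r hq hqM => by
          rw [hc, hc, hc, hc, hg.1.qCoeff_prime_pow_of_not_dvd q r hq hqM, map_sub, map_mul,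
            map_mul, map_natCast]
        qCoeff_prime_pow_of_dvd := fun q r hq hqM => by
          rw [hc, hc, hc, hg.1.qCoeff_prime_pow_of_dvd q r hq hqM, map_mul] }
    rw [← hc]
    refine Newform.qCoeff_eq_of_agree_cofinite hg.1 hE S (fun ℓ hℓ hℓS _ _ => ?_) hp hpM hpM
    obtain ⟨z, hz⟩ := hS ℓ hℓ hℓS
    rw [hc, hz, map_intCast]
  obtain ⟨r, hr⟩ := Integral.exists_rat_eq_of_forall_ringHom hfix
  have hint : IsIntegral ℤ (r : ℂ) := hr.symm ▸ Integral.isIntegral_qCoeff hg.1 p
  have hint' : IsIntegral ℤ r :=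
    (isIntegral_algHom_iff (f := (algebraMap ℚ ℂ).toIntAlgHom)
      (algebraMap ℚ ℂ).injective).mp (by simpa using hint)
  obtain ⟨z, hz⟩ := IsIntegrallyClosed.isIntegral_iff.mp hint'
  refine ⟨z, ?_⟩
  rw [← hr, ← hz]
  simp

/-- The newform of a semistable model, with integer coefficients. -/
theorem exists_integral_newform (W : WeierstrassCurve ℤ) (hΔ : W.Δ ≠ 0)
    (hW : W.IsSemistableModel) :
    ∃ (M : ℕ) (_ : NeZero M) (g : CuspForm (Gamma0 M) 2) (c : ℕ → ℤ),
      Squarefree M ∧ g.IsNormalizedEigenform ∧ (∀ n, (c n : ℂ) = qCoeff g n) ∧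
      ∀ ℓ : ℕ, ℓ.Prime → W.IsGoodPrimeFor ℓ → c ℓ = W.apOfModel ℓ := by
  obtain ⟨N, hN, hsq, hsupp, hmod⟩ := exactConductorLevel W hΔ hW
  have : NeZero N := ⟨hN.ne'⟩
  obtain ⟨M, hMN, hM, g, hg, hgW⟩ := Newform.exists_newform_of_isModularModelOfLevel hmod
  have : NeZero M := ⟨hM.ne'⟩
  have hgood : ∀ ℓ : ℕ, ℓ.Prime → W.IsGoodPrimeFor ℓ → qCoeff g ℓ = (W.apOfModel ℓ : ℂ) :=
    fun ℓ hℓ hg' => hgW ℓ hℓ hg' fun h => hg' ((hsupp ℓ hℓ).1 h)
  choose c hc using exists_int_qCoeff (hsq.squarefree_of_dvd hMN) hg W.Δ.natAbs.primeFactors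
    fun ℓ hℓ hℓS => ⟨_, hgood ℓ hℓ fun h => hℓS (Nat.mem_primeFactors.mpr
      ⟨hℓ, Int.natCast_dvd.mp h, Int.natAbs_ne_zero.mpr hΔ⟩)⟩
  refine ⟨M, inferInstance, g, c, hsq.squarefree_of_dvd hMN, hg.1, fun n => (hc n).symm,
    fun ℓ hℓ hg' => ?_⟩
  exact_mod_cast (hc ℓ).symm.trans (hgood ℓ hℓ hg')

/-! ### The eigensystem with character `χ₋₃` -/

/-- The coefficients of an integral eigenform are congruent modulo three to an eigensystem with
character `χ₋₃`. -/
theorem exists_eigensystem_congruent {M : ℕ} [NeZero M] {g : CuspForm (Gamma0 M) 2}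
    (hg : g.IsNormalizedEigenform) {c : ℕ → ℤ} (hc : ∀ n, (c n : ℂ) = qCoeff g n) :
    ∃ a : ℕ → ℤ,
      FormalHecke.IsEigensystem
        (fun ℓ => if ℓ ∣ M then 0 else ((chiNegThree ℓ : ℤ) : ℤ)) a ∧
      (∀ ℓ : ℕ, ℓ.Prime → a ℓ = c ℓ) ∧ ∀ n, (a n : ZMod 3) = (c n : ZMod 3) := by
  set e : ℕ → ℤ := fun ℓ => if ℓ ∣ M then 0 else ((chiNegThree ℓ : ℤ) : ℤ) with he
  refine ⟨eigenExtend c e, isEigensystem_eigenExtend c e,
    fun ℓ hℓ => eigenExtend_prime hℓ, fun n => ?_⟩
  induction n using Nat.recOnPrimeCoprime with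
  | zero =>
    have h0 : c 0 = 0 := by
      exact_mod_cast (hc 0).trans (Eigen.qCoeff_index_zero g)
    simp [eigenExtend, h0]
  | prime_pow p m hp =>
    rw [eigenExtend_prime_pow hp]
    induction m using Nat.strong_induction_on with
    | _ m ih =>
      rcases m with _ | _ | r
      · have h1 : c 1 = 1 := by exact_mod_cast (hc 1).trans hg.qCoeff_one
        simp [eigenSeq, h1]
      · simp [eigenSeq]
      · rw [eigenSeq, Int.cast_sub, Int.cast_mul, Int.cast_mul, ih (r + 1) (by omega),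
          ih r (by omega)]
        by_cases hpM : p ∣ M
        · have h : c (p ^ (r + 2)) = c p * c (p ^ (r + 1)) := by
            have := hg.qCoeff_prime_pow_of_dvd p r hp hpM
            simp only [← hc] at this
            exact_mod_cast this
          simp [he, hpM, h]
        · have h : c (p ^ (r + 2)) = c p * c (p ^ (r + 1)) - p * c (p ^ r) := by
            have := hg.qCoeff_prime_pow_of_not_dvd p r hp hpM
            simp only [← hc] at this
            exact_mod_cast this
          simp [he, hpM, h, S49.chiNegThree_cast]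
  | coprime a b _ _ hab iha ihb =>
    have h : c (a * b) = c a * c b := by
      have := hg.qCoeff_mul_of_coprime a b hab
      simp only [← hc] at this
      exact_mod_cast this
    rw [eigenExtend_mul hab, h, Int.cast_mul, Int.cast_mul, iha, ihb]

/-- Every semistable model has a lattice realised eigensystem congruent to its traces mod three. -/
theorem exists_latticeRealized_eigensystem (W : WeierstrassCurve ℤ) (hΔ : W.Δ ≠ 0)
    (hW : W.IsSemistableModel) :
    ∃ (M : ℕ) (_ : NeZero M) (a : ℕ → ℤ), Squarefree M ∧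
      CuspForm.HasIntegralBasis M ∧
      FormalHecke.IsEigensystem
        (fun ℓ => if ℓ ∣ M then 0 else ((chiNegThree ℓ : ℤ) : ℤ)) a ∧
      CuspForm.IsLatticeRealized M a ∧
      ∀ ℓ : ℕ, ℓ.Prime → W.IsGoodPrimeFor ℓ → a ℓ = W.apOfModel ℓ := by
  obtain ⟨M, hM, g, c, hsq, hg, hc, hcW⟩ := exists_integral_newform W hΔ hW
  obtain ⟨a, ha, hap, hac⟩ := exists_eigensystem_congruent hg hc
  refine ⟨M, hM, a, hsq, Integral.hasIntegralBasis M, ha,
    ⟨g, fun n => Subring.mem_bot.mpr ⟨c n, hc n⟩, c, hc, fun n => ?_⟩,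
    fun ℓ hℓ hgood => (hap ℓ hℓ).trans (hcW ℓ hℓ hgood)⟩
  refine (ZMod.intCast_zmod_eq_zero_iff_dvd _ 3).mp ?_
  rw [Int.cast_sub, S49.bridgeProduct_cast, hac, sub_self]

end Fermat.Agent.General

end
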