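import Fermat.Agent.Residual.LocalForms
import Fermat.Prelude.Def_FLTPrelim_ModularRep

/-! The Hesse pencil at two for a curve with good reduction at two: integrality and residues of the
scaled invariants, and the parity of the discriminant of a member in terms of `a₂`. -/

set_option autoImplicit false

open WeierstrassCurve Fermat.Agent.Residual

namespace Fermat.Agent.General

/-- The three-division polynomial, homogenised. -/
def psiHom (W : WeierstrassCurve ℤ) (x m : ℤ) : ℤ :=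
  3 * x ^ 4 + W.b₂ * x ^ 3 * m + 3 * W.b₄ * x ^ 2 * m ^ 2 + 3 * W.b₆ * x * m ^ 3 + W.b₈ * m ^ 4

/-- The scaled `c₄` of the pencil, in the invariants `b`. -/
def pencilC {R : Type*} [CommRing R] (b2 b4 b6 x m : R) : R :=
    729 * m ^ 4 * b6 ^ 2 + 162 * m ^ 4 * b4 ^ 3 - 162 * m ^ 4 * b2 * b4 * b6 + 972 * x * m ^ 3 * b4 * b6
      + 162 * x * m ^ 3 * b2 * b4 ^ 2 - 162 * x * m ^ 3 * b2 ^ 2 * b6 + 1944 * x ^ 2 * m ^ 2 * b4 ^ 2
      - 1458 * x ^ 2 * m ^ 2 * b2 * b6 - 5832 * x ^ 3 * m * b6 + 324 * x ^ 3 * m * b2 * b4 - 1944 * x ^ 4 * b4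
      + 81 * x ^ 4 * b2 ^ 2

/-- The scaled `c₆` of the pencil, in the invariants `b`. -/
def pencilG {R : Type*} [CommRing R] (b2 b4 b6 b8 x m : R) : R :=
    19683 * m ^ 6 * b6 ^ 3 + 6561 * m ^ 6 * b4 ^ 3 * b6 + 5832 * m ^ 6 * b2 * b8 ^ 2 - 6561 * m ^ 6 * b2 * b4 * b6 ^ 2
      + 39366 * x * m ^ 5 * b4 * b6 ^ 2 + 17496 * x * m ^ 5 * b4 ^ 4 - 24057 * x * m ^ 5 * b2 * b4 ^ 2 * b6
      + 6561 * x * m ^ 5 * b2 ^ 2 * b6 ^ 2 - 65610 * x ^ 2 * m ^ 4 * b4 ^ 2 * b6 + 98415 * x ^ 2 * m ^ 4 * b2 * b6 ^ 2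
      + 10935 * x ^ 2 * m ^ 4 * b2 * b4 ^ 3 - 10935 * x ^ 2 * m ^ 4 * b2 ^ 2 * b4 * b6 + 393660 * x ^ 3 * m ^ 3 * b6 ^ 2
      + 3645 * x ^ 3 * m ^ 3 * b2 ^ 2 * b4 ^ 2 - 3645 * x ^ 3 * m ^ 3 * b2 ^ 3 * b6 + 393660 * x ^ 4 * m ^ 2 * b4 * b6
      + 21870 * x ^ 4 * m ^ 2 * b2 * b4 ^ 2 - 32805 * x ^ 4 * m ^ 2 * b2 ^ 2 * b6 + 209952 * x ^ 5 * m * b4 ^ 2
      - 78732 * x ^ 5 * m * b2 * b6 - 4374 * x ^ 5 * m * b2 ^ 2 * b4 - 157464 * x ^ 6 * b6 + 26244 * x ^ 6 * b2 * b4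
      - 729 * x ^ 6 * b2 ^ 3

/-- `pencilC` of a curve. -/
def pencilCW (W : WeierstrassCurve ℤ) (x m : ℤ) : ℤ := pencilC W.b₂ W.b₄ W.b₆ x m

/-- `pencilG` of a curve. -/
def pencilGW (W : WeierstrassCurve ℤ) (x m : ℤ) : ℤ := pencilG W.b₂ W.b₄ W.b₆ W.b₈ x m

theorem hesseC4_eq_pencilCW (W : WeierstrassCurve ℤ) (x m : ℤ) :
    hesseC4 W.c₄ W.c₆ (12 * x + W.b₂ * m) m = 256 * pencilCW W x m := by
  simp only [hesseC4, pencilCW, pencilC, WeierstrassCurve.c₄, WeierstrassCurve.c₆]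
  ring

theorem hesseC6_eq_pencilGW (W : WeierstrassCurve ℤ) (x m : ℤ) :
    hesseC6 W.c₄ W.c₆ (12 * x + W.b₂ * m) m = 4096 * pencilGW W x m := by
  simp only [hesseC6, pencilGW, pencilG, WeierstrassCurve.c₄, WeierstrassCurve.c₆,
    WeierstrassCurve.b₂, WeierstrassCurve.b₄, WeierstrassCurve.b₆, WeierstrassCurve.b₈]
  ring

theorem map_pencilC {R S : Type*} [CommRing R] [CommRing S] (f : R →+* S) (b2 b4 b6 x m : R) :
    f (pencilC b2 b4 b6 x m) = pencilC (f b2) (f b4) (f b6) (f x) (f m) := by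
  simp [pencilC, map_ofNat]

theorem map_pencilG {R S : Type*} [CommRing R] [CommRing S] (f : R →+* S) (b2 b4 b6 b8 x m : R) :
    f (pencilG b2 b4 b6 b8 x m) = pencilG (f b2) (f b4) (f b6) (f b8) (f x) (f m) := by
  simp [pencilG, map_ofNat]

/-- The model translated by `r`. -/
def translateModel (W : WeierstrassCurve ℤ) (r : ℤ) : WeierstrassCurve ℤ :=
  ⟨W.a₁, W.a₂ + 3 * r, W.a₃ + r * W.a₁, W.a₄ + 2 * r * W.a₂ + 3 * r ^ 2,
    W.a₆ + r * W.a₄ + r ^ 2 * W.a₂ + r ^ 3⟩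

theorem translateModel_Δ (W : WeierstrassCurve ℤ) (r : ℤ) : (translateModel W r).Δ = W.Δ := by
  simp only [translateModel, WeierstrassCurve.Δ, WeierstrassCurve.b₂, WeierstrassCurve.b₄,
    WeierstrassCurve.b₆, WeierstrassCurve.b₈]
  ring

theorem pencilCW_translate (W : WeierstrassCurve ℤ) (r x m : ℤ) :
    pencilCW W x m = pencilCW (translateModel W r) (x - r * m) m := by
  simp only [pencilCW, pencilC, translateModel, WeierstrassCurve.b₂, WeierstrassCurve.b₄,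
    WeierstrassCurve.b₆]
  ring

theorem pencilGW_translate (W : WeierstrassCurve ℤ) (r x m : ℤ) :
    pencilGW W x m = pencilGW (translateModel W r) (x - r * m) m := by
  simp only [pencilGW, pencilG, translateModel, WeierstrassCurve.b₂, WeierstrassCurve.b₄,
    WeierstrassCurve.b₆, WeierstrassCurve.b₈]
  ring

/-- The reductions of a curve with odd discriminant. -/
theorem reduction_two_cases : ∀ a1 a2 a3 a4 a6 : ZMod 2,
    (⟨a1, a2, a3, a4, a6⟩ : WeierstrassCurve (ZMod 2)).Δ ≠ 0 →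
      (a1 = 0 → a3 = 1) ∧ (a3 = 0 → (⟨a1, a2, a3, a4, a6⟩ : WeierstrassCurve (ZMod 2)).b₈ = 1) ∧
        (a1 = 1 → (⟨a1, a2, a3, a4, a6⟩ : WeierstrassCurve (ZMod 2)).b₈ = 1) := by
  simp only [WeierstrassCurve.Δ, WeierstrassCurve.b₂, WeierstrassCurve.b₄, WeierstrassCurve.b₆,
    WeierstrassCurve.b₈]
  decide

theorem natCast_zmod_eq_iff (a : ℤ) (n : ℕ) (b : ℤ) :
    ((a : ZMod n) = (b : ZMod n)) ↔ (n : ℤ) ∣ b - a :=
  ZMod.intCast_eq_intCast_iff_dvd_sub a b n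

theorem emod_four_of_cast {a : ℤ} {c : ℤ} (h : (a : ZMod 4) = (c : ZMod 4)) : a % 4 = c % 4 :=
  (ZMod.intCast_eq_intCast_iff' a c 4).mp h

theorem cast_four_of_even {a : ℤ} (h : Even a) : (a : ZMod 4) = 0 ∨ (a : ZMod 4) = 2 := by
  obtain ⟨k, rfl⟩ := h
  push_cast
  generalize (k : ZMod 4) = t
  decide +revert

theorem cast_four_of_odd {a : ℤ} (h : Odd a) : (a : ZMod 4) = 1 ∨ (a : ZMod 4) = 3 := by
  obtain ⟨k, rfl⟩ := h
  push_cast
  generalize (k : ZMod 4) = t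
  decide +revert

/-- The invariants modulo small powers of two. -/
theorem reduction_two (W : WeierstrassCurve ℤ) (h2 : ¬ (2 : ℤ) ∣ W.Δ) :
    (Even W.a₁ → Odd W.a₃) ∧ (Even W.a₃ → Odd W.b₈) ∧ (Odd W.a₁ → Odd W.b₈) := by
  have hΔ : (W.map (Int.castRingHom (ZMod 2))).Δ ≠ 0 := by
    rw [WeierstrassCurve.map_Δ, eq_intCast, Ne, ZMod.intCast_eq_zero_iff_even, even_iff_two_dvd]
    exact h2
  have hb : (W.map (Int.castRingHom (ZMod 2))).b₈ = (W.b₈ : ZMod 2) := by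
    rw [WeierstrassCurve.map_b₈, eq_intCast]
  obtain ⟨h1, h3, h8⟩ := reduction_two_cases (W.a₁ : ZMod 2) W.a₂ W.a₃ W.a₄ W.a₆ hΔ
  refine ⟨fun h => ZMod.intCast_eq_one_iff_odd.mp (h1 (ZMod.intCast_eq_zero_iff_even.mpr h)),
    fun h => ?_, fun h => ?_⟩
  · exact ZMod.intCast_eq_one_iff_odd.mp (hb ▸ h3 (ZMod.intCast_eq_zero_iff_even.mpr h))
  · exact ZMod.intCast_eq_one_iff_odd.mp (hb ▸ h8 (ZMod.intCast_eq_one_iff_odd.mpr h))

/-- The supersingular values at `m` even. -/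
theorem pencil_of_supersingular_even {β u b6 b8 x k : ℤ} (hb6 : b6 % 4 = 1) (hx : Odd x) :
    (16 : ℤ) ∣ pencilC (4 * β) (2 * u) b6 x (2 * k) ∧
      pencilG (4 * β) (2 * u) b6 b8 x (2 * k) % 32 = 8 := by
  refine ⟨⟨729 * k ^ 4 * b6 ^ 2 + 1296 * k ^ 4 * u ^ 3 - 1296 * k ^ 4 * β * u * b6 + 972 * x * k ^ 3 * u * b6
        + 1296 * x * k ^ 3 * β * u ^ 2 - 1296 * x * k ^ 3 * β ^ 2 * b6 + 1944 * x ^ 2 * k ^ 2 * u ^ 2
        - 1458 * x ^ 2 * k ^ 2 * β * b6 - 729 * x ^ 3 * k * b6 + 324 * x ^ 3 * k * β * u - 243 * x ^ 4 * u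
        + 81 * x ^ 4 * β ^ 2,
    by simp only [pencilC]; ring⟩, ?_⟩
  have e : pencilG (4 * β) (2 * u) b6 b8 x (2 * k) = -157464 * (b6 * x ^ 6) +
      32 * (39366 * k ^ 6 * b6 ^ 3 + 104976 * k ^ 6 * u ^ 3 * b6 - 104976 * k ^ 6 * β * u * b6 ^ 2 + 78732 * x * k ^ 5 * u * b6 ^ 2
          + 279936 * x * k ^ 5 * u ^ 4 - 384912 * x * k ^ 5 * β * u ^ 2 * b6 + 104976 * x * k ^ 5 * β ^ 2 * b6 ^ 2
          - 131220 * x ^ 2 * k ^ 4 * u ^ 2 * b6 + 196830 * x ^ 2 * k ^ 4 * β * b6 ^ 2 + 174960 * x ^ 2 * k ^ 4 * β * u ^ 3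
          - 174960 * x ^ 2 * k ^ 4 * β ^ 2 * u * b6 + 98415 * x ^ 3 * k ^ 3 * b6 ^ 2 + 58320 * x ^ 3 * k ^ 3 * β ^ 2 * u ^ 2
          - 58320 * x ^ 3 * k ^ 3 * β ^ 3 * b6 + 98415 * x ^ 4 * k ^ 2 * u * b6 + 43740 * x ^ 4 * k ^ 2 * β * u ^ 2
          - 65610 * x ^ 4 * k ^ 2 * β ^ 2 * b6 + 52488 * x ^ 5 * k * u ^ 2 - 19683 * x ^ 5 * k * β * b6
          - 8748 * x ^ 5 * k * β ^ 2 * u + 6561 * x ^ 6 * β * u - 1458 * x ^ 6 * β ^ 3 + 46656 * β * b8 ^ 2 * k ^ 6) := by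
    simp only [pencilG]
    ring
  have h1 : b6 * x ^ 6 % 4 = 1 := by
    refine (emod_four_of_cast (c := 1) ?_).trans (by norm_num)
    have h6 : ((b6 : ℤ) : ZMod 4) = ((1 : ℤ) : ZMod 4) :=
      (ZMod.intCast_eq_intCast_iff' b6 1 4).mpr (by simpa using hb6)
    push_cast at h6 ⊢
    rw [h6]
    rcases cast_four_of_odd hx with h | h <;> rw [h] <;> decide
  rw [e]
  omega

/-- The values at `x = 0` when `b₆` is a multiple of four. -/
theorem pencil_zero_of_b6_even {b2 u k b8 m : ℤ} (hb2 : b2 % 4 = 1) (hb8 : Odd b8) (hm : Odd m) :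
    (16 : ℤ) ∣ pencilC b2 (2 * u) (4 * k) 0 m ∧ pencilG b2 (2 * u) (4 * k) b8 0 m % 32 = 8 := by
  refine ⟨⟨729 * m ^ 4 * k ^ 2 + 81 * m ^ 4 * u ^ 3 - 81 * m ^ 4 * b2 * u * k,
    by simp only [pencilC]; ring⟩, ?_⟩
  have e : pencilG b2 (2 * u) (4 * k) b8 0 m = 8 * (729 * (b2 * b8 ^ 2 * m ^ 6)) +
      32 * (39366 * m ^ 6 * k ^ 3 + 6561 * m ^ 6 * u ^ 3 * k - 6561 * m ^ 6 * b2 * u * k ^ 2) := by
    simp only [pencilG]
    ring
  have h1 : b2 * b8 ^ 2 * m ^ 6 % 4 = 1 := by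
    refine (emod_four_of_cast (c := 1) ?_).trans (by norm_num)
    have h6 : ((b2 : ℤ) : ZMod 4) = ((1 : ℤ) : ZMod 4) :=
      (ZMod.intCast_eq_intCast_iff' b2 1 4).mpr (by simpa using hb2)
    push_cast at h6 ⊢
    rw [h6]
    rcases cast_four_of_odd hm with h | h <;> rcases cast_four_of_odd hb8 with h' | h' <;>
      rw [h, h'] <;> decide
  rw [e]
  omega

/-- The values at `x = 0` when `b₆` is odd. -/
theorem pencil_zero_of_b6_odd {a1 b4 b6 b8 m : ℤ} {b2 : ℤ} (hb2 : (4 : ℤ) ∣ b2 - a1 ^ 2)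
    (hb4 : (2 : ℤ) ∣ b4 - a1) (hb6 : b6 % 4 = 1) (hm : Odd m) :
    Odd (pencilC b2 b4 b6 0 m) ∧ pencilG b2 b4 b6 b8 0 m % 4 = 3 := by
  have h6 : ((b6 : ℤ) : ZMod 4) = ((1 : ℤ) : ZMod 4) :=
    (ZMod.intCast_eq_intCast_iff' b6 1 4).mpr (by simpa using hb6)
  have h2' : ((b2 : ℤ) : ZMod 4) = ((a1 ^ 2 : ℤ) : ZMod 4) :=
    ((natCast_zmod_eq_iff (a1 ^ 2) 4 b2).mpr hb2).symm
  obtain ⟨j, hj⟩ := hb4
  rw [sub_eq_iff_eq_add] at hj
  constructor
  · obtain ⟨i, hi⟩ : Odd (729 * m ^ 4 * b6 ^ 2) := by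
      refine (Odd.mul ?_ (Odd.pow ?_))
      · exact (by decide : Odd (729 : ℤ)).mul hm.pow
      · exact Int.odd_iff.mpr (by omega)
    refine ⟨i + 81 * m ^ 4 * b4 ^ 3 - 81 * m ^ 4 * b2 * b4 * b6, ?_⟩
    simp only [pencilC]
    linear_combination hi
  · refine (emod_four_of_cast (c := 3) ?_).trans (by norm_num)
    show Int.castRingHom (ZMod 4) (pencilG b2 b4 b6 b8 0 m) = _
    rw [map_pencilG]
    subst hj
    simp only [eq_intCast, h2', h6, Int.cast_add, Int.cast_mul, Int.cast_pow, Int.cast_zero,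
      Int.cast_ofNat, Int.cast_one]
    generalize (b8 : ZMod 4) = t8
    generalize (j : ZMod 4) = tj
    rcases cast_four_of_odd hm with h | h <;> rw [h] <;>
      generalize (a1 : ZMod 4) = ta <;> simp only [pencilG] <;> decide +revert

/-- The values at `x` odd and `m` even, ordinary case. -/
theorem pencil_of_ordinary_even {b2 b4 b6 b8 x m : ℤ} (hb2 : b2 % 4 = 1) (hx : Odd x)
    (hm : Even m) : Odd (pencilC b2 b4 b6 x m) ∧ pencilG b2 b4 b6 b8 x m % 4 = 3 := by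
  have hc2 : ((b2 : ℤ) : ZMod 4) = ((1 : ℤ) : ZMod 4) :=
    (ZMod.intCast_eq_intCast_iff' b2 1 4).mpr (by simpa using hb2)
  constructor
  · rw [← ZMod.intCast_eq_one_iff_odd]
    show Int.castRingHom (ZMod 2) (pencilC b2 b4 b6 x m) = 1
    rw [map_pencilC]
    simp only [eq_intCast, (ZMod.intCast_eq_zero_iff_even).mpr hm,
      (ZMod.intCast_eq_one_iff_odd).mpr hx,
      (ZMod.intCast_eq_one_iff_odd).mpr (Int.odd_iff.mpr (by omega) : Odd b2)]
    generalize (b4 : ZMod 2) = t4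
    generalize (b6 : ZMod 2) = t6
    simp only [pencilC]
    decide +revert
  · refine (emod_four_of_cast (c := 3) ?_).trans (by norm_num)
    show Int.castRingHom (ZMod 4) (pencilG b2 b4 b6 b8 x m) = _
    rw [map_pencilG]
    simp only [eq_intCast, hc2, Int.cast_ofNat, Int.cast_one]
    generalize (b4 : ZMod 4) = t4
    generalize (b6 : ZMod 4) = t6
    generalize (b8 : ZMod 4) = t8
    rcases cast_four_of_odd hx with h | h <;> rcases cast_four_of_even hm with h' | h' <;>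
      rw [h, h'] <;> simp only [pencilG] <;> decide +revert

/-- The invariants `b` in terms of the parities of `a₁`, `a₃`. -/
theorem b_two_facts (W : WeierstrassCurve ℤ) :
    (4 : ℤ) ∣ W.b₂ - W.a₁ ^ 2 ∧ (2 : ℤ) ∣ W.b₄ - W.a₁ * W.a₃ ∧
      (4 : ℤ) ∣ W.b₆ - W.a₃ ^ 2 := by
  simp only [WeierstrassCurve.b₂, WeierstrassCurve.b₄, WeierstrassCurve.b₆]
  exact ⟨⟨W.a₂, by ring⟩, ⟨W.a₄, by ring⟩, ⟨W.a₆, by ring⟩⟩

theorem sq_emod_four {a : ℤ} (h : Odd a) : a ^ 2 % 4 = 1 := by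
  obtain ⟨k, rfl⟩ := h
  rw [show (2 * k + 1) ^ 2 = 4 * (k ^ 2 + k) + 1 by ring]
  omega

/-- Integrality of the scaled pencil at two. -/
theorem hesse_two_cases (W : WeierstrassCurve ℤ) (h2 : ¬ (2 : ℤ) ∣ W.Δ) {x m : ℤ}
    (hxm : Odd x ∨ Odd m) :
    ∃ C G : ℤ, hesseC4 W.c₄ W.c₆ (12 * x + W.b₂ * m) m = 256 * C ∧
      hesseC6 W.c₄ W.c₆ (12 * x + W.b₂ * m) m = 4096 * G ∧
      ((Odd C ∧ G % 4 = 3) ∨ ((16 : ℤ) ∣ C ∧ G % 32 = 8)) := by
  refine ⟨pencilCW W x m, pencilGW W x m, hesseC4_eq_pencilCW W x m, hesseC6_eq_pencilGW W x m, ?_⟩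
  obtain ⟨hb2, hb4, hb6⟩ := b_two_facts W
  rcases Int.even_or_odd m with hm | hm
  · have hx : Odd x := hxm.resolve_right (Int.not_odd_iff_even.mpr hm)
    obtain ⟨hr3, -, -⟩ := reduction_two W h2
    rcases Int.even_or_odd W.a₁ with h1 | h1
    · refine Or.inr ?_
      obtain ⟨a, ha⟩ := h1
      have hb6' : W.b₆ % 4 = 1 := by
        have := sq_emod_four (hr3 ⟨a, ha⟩)
        omega
      obtain ⟨β, hβ⟩ : (4 : ℤ) ∣ W.b₂ := by
        have : W.a₁ ^ 2 = 4 * a ^ 2 := by rw [ha]; ring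
        omega
      obtain ⟨u, hu⟩ : (2 : ℤ) ∣ W.b₄ := by
        have : W.a₁ * W.a₃ = 2 * (a * W.a₃) := by rw [ha]; ring
        omega
      obtain ⟨k, rfl⟩ := even_iff_two_dvd.mp hm
      simp only [pencilCW, pencilGW, hβ, hu]
      exact pencil_of_supersingular_even hb6' hx
    · refine Or.inl (pencil_of_ordinary_even ?_ hx hm)
      have := sq_emod_four h1
      omega
  · -- translate the point to zero modulo `32`
    set r := x * m ^ 7 with hr
    obtain ⟨t, ht⟩ : (32 : ℤ) ∣ x - r * m := by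
      obtain ⟨k, rfl⟩ := hm
      have h8 : (32 : ℤ) ∣ 1 - (2 * k + 1) ^ 8 := by
        rw [← Int.modEq_iff_dvd]
        have h : ∀ z : ZMod 32, (2 * z + 1) ^ 8 = 1 := by decide
        refine (ZMod.intCast_eq_intCast_iff _ _ 32).mp ?_
        push_cast
        exact h _
      rw [hr, show x - x * (2 * k + 1) ^ 7 * (2 * k + 1) = x * (1 - (2 * k + 1) ^ 8) by ring]
      exact h8.mul_left x
    rw [pencilCW_translate W r, pencilGW_translate W r, ht]
    have h2' : ¬ (2 : ℤ) ∣ (translateModel W r).Δ := by rwa [translateModel_Δ]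
    clear hb2 hb4 hb6
    generalize translateModel W r = V at h2' ⊢
    obtain ⟨hb2, hb4, hb6⟩ := b_two_facts V
    obtain ⟨hr3, hr8, -⟩ := reduction_two V h2'
    -- reduce to `x = 0` modulo `32`
    have hC : (32 : ℤ) ∣ pencilCW V (32 * t) m - pencilCW V 0 m := by
      rw [← Int.modEq_iff_dvd]
      refine (ZMod.intCast_eq_intCast_iff _ _ 32).mp ?_
      show Int.castRingHom (ZMod 32) (pencilCW V 0 m) =
        Int.castRingHom (ZMod 32) (pencilCW V (32 * t) m)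
      rw [pencilCW, pencilCW, map_pencilC, map_pencilC, map_zero, map_mul,
        show Int.castRingHom (ZMod 32) 32 = 0 from rfl, zero_mul]
    have hG : (32 : ℤ) ∣ pencilGW V (32 * t) m - pencilGW V 0 m := by
      rw [← Int.modEq_iff_dvd]
      refine (ZMod.intCast_eq_intCast_iff _ _ 32).mp ?_
      show Int.castRingHom (ZMod 32) (pencilGW V 0 m) =
        Int.castRingHom (ZMod 32) (pencilGW V (32 * t) m)
      rw [pencilGW, pencilGW, map_pencilG, map_pencilG, map_zero, map_mul,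
        show Int.castRingHom (ZMod 32) 32 = 0 from rfl, zero_mul]
    rcases Int.even_or_odd V.a₃ with h3 | h3
    · refine Or.inr ?_
      have h1 : Odd V.a₁ := by
        rcases Int.even_or_odd V.a₁ with h | h
        · exact absurd h3 (Int.not_even_iff_odd.mpr (hr3 h))
        · exact h
      obtain ⟨a, ha⟩ := h3
      obtain ⟨k, hk⟩ : (4 : ℤ) ∣ V.b₆ := by
        have : V.a₃ ^ 2 = 4 * a ^ 2 := by rw [ha]; ring
        omega
      obtain ⟨u, hu⟩ : (2 : ℤ) ∣ V.b₄ := by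
        have : V.a₁ * V.a₃ = 2 * (V.a₁ * a) := by rw [ha]; ring
        omega
      have hb2' : V.b₂ % 4 = 1 := by
        have := sq_emod_four h1
        omega
      obtain ⟨c1, c2⟩ := pencil_zero_of_b6_even (u := u) (k := k) hb2' (hr8 ⟨a, ha⟩) hm
      rw [← hk, ← hu] at c1 c2
      simp only [pencilCW, pencilGW] at hC hG ⊢
      omega
    · refine Or.inl ?_
      have hb6' : V.b₆ % 4 = 1 := by
        have := sq_emod_four h3
        omega
      have hb4' : (2 : ℤ) ∣ V.b₄ - V.a₁ := by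
        obtain ⟨a, ha⟩ := h3
        have : V.a₁ * V.a₃ = V.a₁ + 2 * (V.a₁ * a) := by rw [ha]; ring
        omega
      obtain ⟨c1, c2⟩ := pencil_zero_of_b6_odd (b8 := V.b₈) hb2 hb4' hb6' hm
      simp only [pencilCW, pencilGW, Int.odd_iff] at hC hG c1 ⊢
      omega

/-- The count of affine points over the field with two elements. -/
theorem affine_count_two : ∀ a1 a2 a3 a4 a6 : ZMod 2,
    (⟨a1, a2, a3, a4, a6⟩ : WeierstrassCurve (ZMod 2)).Δ ≠ 0 →
      ((2 - (Fintype.card {q : ZMod 2 × ZMod 2 // q.2 ^ 2 + a1 * q.1 * q.2 + a3 * q.2 =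
          q.1 ^ 3 + a2 * q.1 ^ 2 + a4 * q.1 + a6} : ℤ)) = 0 ↔ (a1 = 0 ∧ a2 + a4 = 0)) := by
  simp only [WeierstrassCurve.Δ, WeierstrassCurve.b₂, WeierstrassCurve.b₄, WeierstrassCurve.b₆,
    WeierstrassCurve.b₈]
  decide +kernel

open scoped Classical in
/-- The trace of Frobenius over the field with two elements, by the affine points. -/
theorem traceOfFrobenius_two (E : WeierstrassCurve (ZMod 2)) (hΔ : E.Δ ≠ 0) :
    E.traceOfFrobenius = 2 - (Fintype.card {q : ZMod 2 × ZMod 2 //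
      q.2 ^ 2 + E.a₁ * q.1 * q.2 + E.a₃ * q.2 =
        q.1 ^ 3 + E.a₂ * q.1 ^ 2 + E.a₄ * q.1 + E.a₆} : ℤ) := by
  have : Fact (Nat.Prime 2) := ⟨Nat.prime_two⟩
  let e : E.toAffine.Point ≃ Option {q : ZMod 2 × ZMod 2 //
      q.2 ^ 2 + E.a₁ * q.1 * q.2 + E.a₃ * q.2 =
        q.1 ^ 3 + E.a₂ * q.1 ^ 2 + E.a₄ * q.1 + E.a₆} :=
    { toFun := fun P => match P with
        | .zero => none
        | .some x y h => some ⟨(x, y), (Affine.equation_iff x y).mp h.1⟩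
      invFun := fun o => match o with
        | none => .zero
        | some q => .some q.1.1 q.1.2
            ((Affine.equation_iff_nonsingular_of_Δ_ne_zero hΔ).mp
              ((Affine.equation_iff q.1.1 q.1.2).mpr q.2))
      left_inv := fun P => by rcases P with _ | ⟨x, y, h⟩ <;> rfl
      right_inv := fun o => by rcases o with _ | ⟨⟨x, y⟩, h⟩ <;> rfl }
  rw [WeierstrassCurve.traceOfFrobenius, WeierstrassCurve.card, Nat.card_congr e,
    Nat.card_eq_fintype_card, Nat.card_eq_fintype_card, Fintype.card_option, ZMod.card]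
  push_cast
  ring

/-- Vanishing of the trace at two. -/
theorem apOfModel_two_eq_zero_iff (W : WeierstrassCurve ℤ) (h2 : ¬ (2 : ℤ) ∣ W.Δ) :
    W.apOfModel 2 = 0 ↔ Even W.a₁ ∧ Even (W.a₂ + W.a₄) := by
  classical
  have hΔ : (W.reductionMod 2).Δ ≠ 0 := by
    rw [WeierstrassCurve.reductionMod, WeierstrassCurve.map_Δ, eq_intCast, Ne,
      ZMod.intCast_eq_zero_iff_even, even_iff_two_dvd]
    exact h2
  have h := affine_count_two (W.a₁ : ZMod 2) W.a₂ W.a₃ W.a₄ W.a₆ hΔ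
  rw [WeierstrassCurve.apOfModel, traceOfFrobenius_two _ hΔ, ← ZMod.intCast_eq_zero_iff_even,
    ← ZMod.intCast_eq_zero_iff_even, Int.cast_add]
  convert h using 4
  simp only [WeierstrassCurve.reductionMod, WeierstrassCurve.map_a₁, WeierstrassCurve.map_a₂,
    WeierstrassCurve.map_a₃, WeierstrassCurve.map_a₄, WeierstrassCurve.map_a₆, eq_intCast]

theorem b8_two_facts (W : WeierstrassCurve ℤ) (h1 : Even W.a₁) (h3 : Odd W.a₃) :
    (2 : ℤ) ∣ W.b₈ - (W.a₂ + W.a₄) := by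
  obtain ⟨a, ha⟩ := h1
  obtain ⟨c, hc⟩ := h3
  rw [← Int.modEq_iff_dvd]
  refine (ZMod.intCast_eq_intCast_iff _ _ 2).mp ?_
  simp only [WeierstrassCurve.b₈, ha, hc]
  push_cast
  generalize (a : ZMod 2) = t1
  generalize (W.a₂ : ZMod 2) = t2
  generalize (c : ZMod 2) = t3
  generalize (W.a₄ : ZMod 2) = t4
  generalize (W.a₆ : ZMod 2) = t6
  decide +revert

/-- With trace zero at two the division polynomial is even at `m` odd. -/
theorem even_psiHom_of_ap_zero (W : WeierstrassCurve ℤ) (h2 : ¬ (2 : ℤ) ∣ W.Δ)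
    (ha : W.apOfModel 2 = 0) {x m : ℤ} (hm : Odd m) : Even (psiHom W x m) := by
  obtain ⟨h1, h24⟩ := (apOfModel_two_eq_zero_iff W h2).mp ha
  have h3 := (reduction_two W h2).1 h1
  obtain ⟨hb2, hb4, hb6⟩ := b_two_facts W
  have hb8 := b8_two_facts W h1 h3
  have e8 : (W.b₈ : ZMod 2) = 0 := by
    rw [ZMod.intCast_eq_zero_iff_even, Int.even_iff]
    rw [Int.even_iff] at h24
    omega
  have e2 : (W.b₂ : ZMod 2) = 0 := by
    obtain ⟨a, ha⟩ := h1
    have : W.a₁ ^ 2 = 4 * a ^ 2 := by rw [ha]; ring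
    rw [ZMod.intCast_eq_zero_iff_even, Int.even_iff]
    omega
  have e4 : (W.b₄ : ZMod 2) = 0 := by
    obtain ⟨a, ha⟩ := h1
    have : W.a₁ * W.a₃ = 2 * (a * W.a₃) := by rw [ha]; ring
    rw [ZMod.intCast_eq_zero_iff_even, Int.even_iff]
    omega
  have e6 : (W.b₆ : ZMod 2) = 1 := by
    have := sq_emod_four h3
    rw [ZMod.intCast_eq_one_iff_odd, Int.odd_iff]
    omega
  rw [← ZMod.intCast_eq_zero_iff_even]
  simp only [psiHom]
  push_cast
  rw [e2, e4, e6, e8, (ZMod.intCast_eq_one_iff_odd).mpr hm]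
  generalize (x : ZMod 2) = t
  decide +revert

set_option linter.unusedVariables false in
/-- With non-zero trace at two some parities of the parameter give good supersingular members. -/
theorem exists_supersingular_parity (W : WeierstrassCurve ℤ) (h2 : ¬ (2 : ℤ) ∣ W.Δ)
    (ha : W.apOfModel 2 ≠ 0) :
    ∃ x₀ m₀ : ℤ, (Odd x₀ ∨ Odd m₀) ∧ ∀ x m : ℤ, (2 : ℤ) ∣ x - x₀ → (2 : ℤ) ∣ m - m₀ →
      Odd (psiHom W x m) ∧
      ∀ C : ℤ, hesseC4 W.c₄ W.c₆ (12 * x + W.b₂ * m) m = 256 * C → (16 : ℤ) ∣ C := by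
  obtain ⟨hb2, hb4, hb6⟩ := b_two_facts W
  obtain ⟨hr3, -, hr8⟩ := reduction_two W h2
  rcases Int.even_or_odd W.a₁ with h1 | h1
  · refine ⟨1, 0, Or.inl odd_one, fun x m hx hm => ⟨?_, fun C hC => ?_⟩⟩
    · rw [← ZMod.intCast_eq_one_iff_odd]
      simp only [psiHom]
      push_cast
      rw [(ZMod.intCast_eq_one_iff_odd).mpr (Int.odd_iff.mpr (by omega) : Odd x),
        (ZMod.intCast_eq_zero_iff_even).mpr (Int.even_iff.mpr (by omega) : Even m)]
      simp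
      decide
    · obtain rfl : C = pencilCW W x m := by
        have := (hesseC4_eq_pencilCW W x m).symm.trans hC
        omega
      obtain ⟨a, ha'⟩ := h1
      obtain ⟨β, hβ⟩ : (4 : ℤ) ∣ W.b₂ := by
        have : W.a₁ ^ 2 = 4 * a ^ 2 := by rw [ha']; ring
        omega
      obtain ⟨u, hu⟩ : (2 : ℤ) ∣ W.b₄ := by
        have : W.a₁ * W.a₃ = 2 * (a * W.a₃) := by rw [ha']; ring
        omega
      obtain ⟨k, rfl⟩ : (2 : ℤ) ∣ m := by omega
      have hb6' : W.b₆ % 4 = 1 := by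
        have := sq_emod_four (hr3 ⟨a, ha'⟩)
        omega
      simp only [pencilCW, hβ, hu]
      exact (pencil_of_supersingular_even (b8 := W.b₈) hb6' (Int.odd_iff.mpr (by omega))).1
  · refine ⟨W.b₆, 1, Or.inr odd_one, fun x m hx hm => ?_⟩
    have hm' : Odd m := Int.odd_iff.mpr (by omega)
    have e6 : (x : ZMod 2) = W.b₆ :=
      ((natCast_zmod_eq_iff W.b₆ 2 x).mpr (by simpa using hx)).symm
    have e46 : (W.b₄ : ZMod 2) = W.b₆ := by
      refine ((natCast_zmod_eq_iff W.b₄ 2 W.b₆).mpr ?_)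
      obtain ⟨a, ha'⟩ := h1
      have : W.a₁ * W.a₃ = W.a₃ + 2 * (a * W.a₃) := by rw [ha']; ring
      rcases Int.even_or_odd W.a₃ with ⟨c, hc⟩ | ⟨c, hc⟩
      · have : W.a₃ ^ 2 = 4 * c ^ 2 := by rw [hc]; ring
        push_cast
        omega
      · have : W.a₃ ^ 2 = 4 * (c ^ 2 + c) + 1 := by rw [hc]; ring
        push_cast
        omega
    have e2 : (W.b₂ : ZMod 2) = 1 := by
      have := sq_emod_four h1
      rw [ZMod.intCast_eq_one_iff_odd, Int.odd_iff]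
      omega
    refine ⟨?_, fun C hC => ?_⟩
    · rw [← ZMod.intCast_eq_one_iff_odd]
      simp only [psiHom]
      push_cast
      rw [e2, e46, e6, (ZMod.intCast_eq_one_iff_odd).mpr hm',
        (ZMod.intCast_eq_one_iff_odd).mpr (hr8 h1)]
      generalize (W.b₆ : ZMod 2) = t
      decide +revert
    · obtain ⟨C', G', hC', -, hcase⟩ := hesse_two_cases W h2 (x := x) (m := m) (Or.inr hm')
      obtain rfl : C = C' := by
        have := hC.symm.trans hC'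
        omega
      rcases hcase with ⟨hodd, -⟩ | ⟨h16, -⟩
      · exfalso
        obtain rfl : C = pencilCW W x m := by
          have := (hesseC4_eq_pencilCW W x m).symm.trans hC
          omega
        rw [← ZMod.intCast_eq_one_iff_odd] at hodd
        change Int.castRingHom (ZMod 2) (pencilCW W x m) = 1 at hodd
        rw [pencilCW, map_pencilC] at hodd
        simp only [eq_intCast, e2, e46, e6, (ZMod.intCast_eq_one_iff_odd).mpr hm'] at hodd
        revert hodd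
        generalize (W.b₆ : ZMod 2) = t
        simp only [pencilC]
        decide +revert
      · exact h16

end Fermat.Agent.General
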