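import Fermat.Prelude.Def_FLTPrelim_Modularity
import Mathlib.Algebra.Field.ZMod

/-! Point counts of Weierstrass curves over a small field as finite filters. -/

set_option autoImplicit false

open WeierstrassCurve

namespace Fermat.Agent.General

/-- The point count of a Weierstrass curve as a count of affine pairs. -/
theorem natCard_point_eq_card_filter {F : Type*} [Field F] [Fintype F] [DecidableEq F]
    (E : WeierstrassCurve F) :
    Nat.card E.toAffine.Point =
      (Finset.univ.filter fun p : F × F =>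
        p.2 ^ 2 + E.a₁ * p.1 * p.2 + E.a₃ * p.2
          = p.1 ^ 3 + E.a₂ * p.1 ^ 2 + E.a₄ * p.1 + E.a₆ ∧
        (E.a₁ * p.2 ≠ 3 * p.1 ^ 2 + 2 * E.a₂ * p.1 + E.a₄ ∨
          p.2 ≠ -p.2 - E.a₁ * p.1 - E.a₃)).card + 1 := by
  classical
  let e : E.toAffine.Point ≃ Option {p : F × F // E.toAffine.Nonsingular p.1 p.2} :=
    { toFun := fun P => match P with
        | .zero => none
        | .some x y h => some ⟨(x, y), h⟩
      invFun := fun o => match o with
        | none => .zero
        | some q => .some q.1.1 q.1.2 q.2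
      left_inv := by rintro (_ | ⟨x, y, h⟩) <;> rfl
      right_inv := by rintro (_ | ⟨⟨x, y⟩, h⟩) <;> rfl }
  rw [Nat.card_congr e, Finite.card_option, Nat.card_eq_fintype_card, Fintype.card_subtype]
  congr 2
  refine Finset.filter_congr fun p _ => ?_
  rw [Affine.nonsingular_iff, Affine.equation_iff]

/-- The number of affine points over `𝔽₂` of `y² + y = x³ + a₂x² + a₄x + a₆`. -/
def twoCount (a2 a4 a6 : ZMod 2) : ℕ :=
  (Finset.univ.filter fun p : ZMod 2 × ZMod 2 =>
    p.2 ^ 2 + 0 * p.1 * p.2 + 1 * p.2 = p.1 ^ 3 + a2 * p.1 ^ 2 + a4 * p.1 + a6 ∧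
    (0 * p.2 ≠ 3 * p.1 ^ 2 + 2 * a2 * p.1 + a4 ∨ p.2 ≠ -p.2 - 0 * p.1 - 1)).card

theorem twoCount_spec : ∀ a2 a4 a6 : ZMod 2,
    Even (twoCount a2 a4 a6) ∧ (twoCount a2 a4 a6 = 2 ↔ a2 + a4 = 0) := by
  unfold twoCount
  decide

end Fermat.Agent.General
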