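import Fermat.Agent.Residual.LocalForms
import Fermat.Agent.Residual.LocalGlue
import Fermat.Agent.CondLevel.PointCount
import Fermat.Agent.General.TwoPointCount
import Fermat.Prelude.Def_FLTPrelim_ModularRep
import Fermat.Agent.General.TwoAdicPencil

/-! Two-adic lemmas for the Hesse pencil: local models at two of supersingular type and the trace
of Frobenius at two of such curves. -/

set_option autoImplicit false

open WeierstrassCurve Fermat.Agent.Residual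

namespace Fermat.Agent.General

/-- The discriminant form of the pencil is the three-division polynomial. -/
theorem hesseD_psiHom (W : WeierstrassCurve ℤ) (x m : ℤ) :
    hesseD W.c₄ W.c₆ (12 * x + W.b₂ * m) m = 6912 * psiHom W x m := by
  simp only [hesseD, psiHom, WeierstrassCurve.c₄, WeierstrassCurve.c₆]
  linear_combination (-1728 * m ^ 4) * W.b_relation

/-- Supersingular invariants at two have a local model. -/
theorem exists_local_model_two_supersingular {c4 c6 : ℤ} (h4 : (16 : ℤ) ∣ c4) (h6 : c6 % 32 = 8) :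
    ∃ W₂ : WeierstrassCurve ℤ, (4096 : ℤ) ∣ c4 - W₂.c₄ ∧ (4096 : ℤ) ∣ c6 - W₂.c₆ := by
  obtain ⟨C, rfl⟩ := h4
  obtain ⟨K, hK⟩ : (32 : ℤ) ∣ c6 + 216 := by omega
  refine ⟨⟨0, 0, 1, -171 * C, -19 * K⟩, ⟨-2 * C, ?_⟩, ⟨-4 * K, ?_⟩⟩ <;>
    simp only [WeierstrassCurve.c₄, WeierstrassCurve.c₆, WeierstrassCurve.b₂, WeierstrassCurve.b₄,
      WeierstrassCurve.b₆]
  · ring
  · linear_combination hK

/-- At two, `16 ∣ c₄` and good reduction force `a₁` even and `a₃` odd. -/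
theorem two_parity_of_supersingular (W : WeierstrassCurve ℤ) (h2 : ¬ (2 : ℤ) ∣ W.Δ)
    (h4 : (16 : ℤ) ∣ W.c₄) : (2 : ℤ) ∣ W.a₁ ∧ ¬ (2 : ℤ) ∣ W.a₃ := by
  have : CharP (ZMod 2) 2 := ZMod.charP 2
  set f : ℤ →+* ZMod 2 := Int.castRingHom (ZMod 2) with hf
  have hz : ∀ z : ℤ, f z = 0 ↔ (2 : ℤ) ∣ z := fun z => by
    simpa [hf] using ZMod.intCast_zmod_eq_zero_iff_dvd z 2
  have hc : f W.c₄ = (f W.a₁) ^ 4 := by
    rw [← map_c₄, WeierstrassCurve.c₄_of_char_two, map_a₁]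
  have hd : f W.Δ = (f W.a₁) ^ 4 * (W.map f).b₈ + (f W.a₃) ^ 4 + (f W.a₁) ^ 3 * (f W.a₃) ^ 3 := by
    rw [← map_Δ, WeierstrassCurve.Δ_of_char_two, map_a₁, map_a₃]
  have h1 : f W.a₁ = 0 := by
    have : f W.c₄ = 0 := (hz _).2 (dvd_trans (by norm_num) h4)
    rw [hc] at this
    exact pow_eq_zero_iff (n := 4) (by norm_num) |>.1 this
  refine ⟨(hz _).1 h1, fun h3 => h2 ((hz _).1 ?_)⟩
  rw [hd, h1, (hz _).2 h3]
  ring

/-- At two, `16 ∣ c₄` and good reduction force `c₆ ≡ 8` modulo `32`. -/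
theorem c6_mod_of_supersingular (W : WeierstrassCurve ℤ) (h2 : ¬ (2 : ℤ) ∣ W.Δ)
    (h4 : (16 : ℤ) ∣ W.c₄) : W.c₆ % 32 = 8 := by
  obtain ⟨⟨w, hw⟩, h3⟩ := two_parity_of_supersingular W h2 h4
  obtain ⟨t, ht⟩ : ∃ t, W.a₃ = 2 * t + 1 := ⟨W.a₃ / 2, by omega⟩
  have e : W.c₆ = 32 * (-2 * (w ^ 2 + W.a₂) ^ 3 + 9 * (w ^ 2 + W.a₂) * (W.a₄ + w * W.a₃)
      - 27 * (t ^ 2 + t + W.a₆) - 7) + 8 := by
    simp only [WeierstrassCurve.c₆, WeierstrassCurve.b₂, WeierstrassCurve.b₄, WeierstrassCurve.b₆]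
    rw [hw, ht]
    ring
  omega

/-- The trace at two of a supersingular curve in terms of `c₄` modulo `32`. -/
theorem apOfModel_two_of_supersingular (W : WeierstrassCurve ℤ) (h2 : ¬ (2 : ℤ) ∣ W.Δ)
    (h4 : (16 : ℤ) ∣ W.c₄) :
    Even (W.apOfModel 2) ∧ (W.apOfModel 2 = 0 ↔ (32 : ℤ) ∣ W.c₄) := by
  obtain ⟨⟨w, hw⟩, h3⟩ := two_parity_of_supersingular W h2 h4
  have ha1 : ((W.a₁ : ℤ) : ZMod 2) = 0 := by
    rw [hw]; push_cast; rw [show (2 : ZMod 2) = 0 from rfl]; ring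
  have ha3 : ((W.a₃ : ℤ) : ZMod 2) = 1 := by
    obtain ⟨t, ht⟩ : ∃ t, W.a₃ = 2 * t + 1 := ⟨W.a₃ / 2, by omega⟩
    rw [ht]; push_cast; rw [show (2 : ZMod 2) = 0 from rfl]; ring
  obtain ⟨hE, hN⟩ := twoCount_spec (W.a₂ : ZMod 2) (W.a₄ : ZMod 2) (W.a₆ : ZMod 2)
  have hcard := natCard_point_eq_card_filter (W.reductionMod 2)
  simp only [WeierstrassCurve.reductionMod, map_a₁, map_a₂, map_a₃, map_a₄, map_a₆,
    Int.coe_castRingHom, ha1, ha3] at hcard
  have hcard' : Nat.card ((W.map (Int.castRingHom (ZMod 2))).toAffine.Point)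
      = twoCount (W.a₂ : ZMod 2) (W.a₄ : ZMod 2) (W.a₆ : ZMod 2) + 1 := hcard
  unfold WeierstrassCurve.apOfModel WeierstrassCurve.traceOfFrobenius WeierstrassCurve.card
    WeierstrassCurve.reductionMod
  rw [Nat.card_zmod, hcard']
  set N := twoCount (W.a₂ : ZMod 2) (W.a₄ : ZMod 2) (W.a₆ : ZMod 2) with hNdef
  clear_value N
  constructor
  · obtain ⟨k, hk⟩ := hE
    exact ⟨1 - k, by omega⟩
  · have hc : W.c₄ = 16 * ((w ^ 2 + W.a₂) ^ 2 - 3 * (W.a₄ + w * W.a₃)) := by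
      simp only [WeierstrassCurve.c₄, WeierstrassCurve.b₂, WeierstrassCurve.b₄]
      rw [hw]; ring
    have hm : (((w ^ 2 + W.a₂) ^ 2 - 3 * (W.a₄ + w * W.a₃) : ℤ) : ZMod 2)
        = (W.a₂ : ZMod 2) + (W.a₄ : ZMod 2) := by
      push_cast
      rw [ha3]
      generalize (w : ZMod 2) = a, (W.a₂ : ZMod 2) = b, (W.a₄ : ZMod 2) = c
      revert a b c
      decide
    constructor
    · intro h0
      have : N = 2 := by omega
      have hd := hN.1 this
      rw [← hm, ZMod.intCast_zmod_eq_zero_iff_dvd] at hd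
      rw [hc]
      norm_cast at hd
      omega
    · intro h32
      have : (2 : ℤ) ∣ (w ^ 2 + W.a₂) ^ 2 - 3 * (W.a₄ + w * W.a₃) := by
        rw [hc] at h32; omega
      have hd : (W.a₂ : ZMod 2) + (W.a₄ : ZMod 2) = 0 := by
        rw [← hm, ZMod.intCast_zmod_eq_zero_iff_dvd]; exact_mod_cast this
      have := hN.2 hd
      omega

/-- The Hasse bound at two. -/
theorem abs_apOfModel_two_le (W : WeierstrassCurve ℤ) : |W.apOfModel 2| ≤ 2 := by
  have : Fact (Nat.Prime 2) := ⟨Nat.prime_two⟩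
  have hle := CondLevel.natCard_point_le (W.reductionMod 2)
  have : Nonempty (W.reductionMod 2).toAffine.Point := ⟨.zero⟩
  have hpos : 0 < Nat.card (W.reductionMod 2).toAffine.Point := Nat.card_pos
  rw [Nat.card_zmod] at hle
  unfold WeierstrassCurve.apOfModel WeierstrassCurve.traceOfFrobenius WeierstrassCurve.card
  rw [Nat.card_zmod, abs_le]
  constructor <;> omega

end Fermat.Agent.General
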