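import Fermat.Agent.General.PencilTwo
import Fermat.Agent.General.TwoAdic
import Fermat.Agent.Switch.Integral
import Fermat.Agent.Residual.LocalGlue

/-!
# An integral member of the five-pencil which is multiplicative at two

For `W` supersingular at two with `32 ∤ c₄` the member `(8 : M)` of the pencil, `M` odd and
divisible by enough odd primes, rescaled by `4`, has a semistable integral model with even
discriminant, and the same bad primes as `W` among those dividing `15 Δ`.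
-/

set_option autoImplicit false

noncomputable section

namespace Fermat.Agent.General

open Polynomial WeierstrassCurve Fermat.Agent.Switch Fermat.Agent.Residual

theorem homEval_mul_mul {A : Type*} [CommRing A] (m : ℕ) (p : A[X]) (c l μ : A) :
    homEval m p (c * l) (c * μ) = c ^ m * homEval m p l μ := by
  simp only [homEval, Finset.mul_sum]
  refine Finset.sum_congr rfl fun i hi => ?_
  obtain ⟨j, rfl⟩ := Nat.exists_eq_add_of_le (Nat.lt_succ_iff.1 (Finset.mem_range.1 hi))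
  rw [Nat.add_sub_cancel_left, mul_pow, mul_pow, pow_add]
  ring

/-- The value at `(8 : M)` is `2 ^ j` times an integer congruent to the expected one. -/
theorem exists_scaled_value (m j : ℕ) (p : ℚ[X]) (c0 : ℤ) (hc0 : p.coeff 0 = c0) (e : ℕ)
    (Ro K : ℤ) (hRo : Ro ≠ 0) (hK : Odd K) (q : ℤ[X])
    (hq : q.map (Int.castRingHom ℚ) = C ((2 : ℚ) ^ e * (Ro : ℚ)) * p) (t A : ℤ) (ht : Odd t)
    (hA : (t : ℚ) * homEval m p 8 ((Ro * K : ℤ) : ℚ) = 2 ^ j * (A : ℚ)) :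
    ∃ a : ℤ, homEval m p 8 ((Ro * K : ℤ) : ℚ) = 2 ^ j * (a : ℚ) ∧ A = t * a ∧
      K ∣ 2 ^ j * a - c0 * 8 ^ m ∧
      2 ^ e * Ro * (2 ^ j * a) = homEval m q 8 (Ro * K) := by
  set v := homEval m p 8 ((Ro * K : ℤ) : ℚ) with hv
  have hcoeff : ∀ i, ((q.coeff i : ℤ) : ℚ) = 2 ^ e * (Ro : ℚ) * p.coeff i := fun i => by
    rw [← coeff_C_mul, ← hq, coeff_map, eq_intCast]
  let S : ℤ := ∑ i ∈ Finset.range m, q.coeff (i + 1) * (Ro * K) ^ i * 8 ^ (m - (i + 1))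
  let z : ℤ := 2 ^ e * (c0 * 8 ^ m) + K * S
  have hsum : (2 : ℚ) ^ e * Ro * v = ((homEval m q 8 (Ro * K) : ℤ) : ℚ) := by
    simp only [hv, homEval, Finset.mul_sum, Int.cast_sum, Int.cast_mul, Int.cast_pow, hcoeff,
      Int.cast_ofNat]
    exact Finset.sum_congr rfl fun i _ => by ring
  have hz : (2 : ℚ) ^ e * v = (z : ℚ) := by
    have hRo' : (Ro : ℚ) ≠ 0 := Int.cast_ne_zero.2 hRo
    refine mul_left_cancel₀ hRo' ?_
    rw [← mul_assoc, mul_comm (Ro : ℚ), hsum]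
    simp only [z, S, homEval, Finset.sum_range_succ', Finset.mul_sum]
    push_cast
    simp only [hcoeff, hc0]
    rw [mul_add, Finset.mul_sum, add_comm]
    congr 1
    · simp; ring
    · exact Finset.sum_congr rfl fun i _ => by ring
  have htz : t * z = 2 ^ (e + j) * A := by
    have h : ((t * z : ℤ) : ℚ) = ((2 ^ (e + j) * A : ℤ) : ℚ) := by
      push_cast
      rw [← hz, pow_add, mul_assoc, ← hA]
      ring
    exact_mod_cast h
  have hcop : IsCoprime t ((2 : ℤ) ^ (e + j)) := by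
    obtain ⟨i, rfl⟩ := ht
    exact IsCoprime.pow_right ⟨1, -i, by ring⟩
  obtain ⟨a, ha⟩ := hcop.dvd_of_dvd_mul_left ⟨z, htz.symm⟩
  have ht0 : (t : ℚ) ≠ 0 := Int.cast_ne_zero.2 (fun h => by simp [h] at ht)
  have hva : v = 2 ^ j * (a : ℚ) := by
    refine mul_left_cancel₀ ht0 ?_
    rw [hA, ha]
    push_cast
    ring
  have hza : z = 2 ^ (e + j) * a := by
    have h : (z : ℚ) = ((2 ^ (e + j) * a : ℤ) : ℚ) := by
      push_cast
      rw [← hz, hva, pow_add]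
      ring
    exact_mod_cast h
  refine ⟨a, hva, ha, ?_, ?_⟩
  · have hcopK : IsCoprime K ((2 : ℤ) ^ e) := by
      obtain ⟨i, rfl⟩ := hK
      exact IsCoprime.pow_right ⟨1, -i, by ring⟩
    refine hcopK.dvd_of_dvd_mul_left ⟨S, ?_⟩
    have h : z = 2 ^ e * (c0 * 8 ^ m) + K * S := rfl
    rw [hza, pow_add] at h
    linear_combination h
  · have h := hsum
    rw [hva] at h
    exact_mod_cast h

/-- The semistable integral model, with even discriminant, of a member of the five-pencil. -/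
theorem exists_five_integral (W : WeierstrassCurve ℤ) (hΔ : W.Δ ≠ 0) (hW : W.IsSemistableModel)
    (h2 : ¬ (2 : ℤ) ∣ W.Δ) (h4 : (16 : ℤ) ∣ W.c₄) (h32 : ¬ (32 : ℤ) ∣ W.c₄)
    (d : PencilData (W.c₄ : ℚ) (W.c₆ : ℚ)) :
    ∃ (M : ℕ) (W' : WeierstrassCurve ℤ), W'.Δ ≠ 0 ∧ W'.IsSemistableModel ∧ (2 : ℤ) ∣ W'.Δ ∧
      (W'.c₄ : ℚ) = homEval 20 d.P4 2 ((M : ℚ) / 4) ∧
      (W'.c₆ : ℚ) = homEval 30 d.P6 2 ((M : ℚ) / 4) ∧
      ∀ q : ℕ, q.Prime → q ≠ 2 → (q : ℤ) ∣ 15 * W.Δ →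
        ((q : ℤ) ∣ W'.Δ ↔ (q : ℤ) ∣ W.Δ) := by
  classical
  have hrel : (W.c₄ : ℚ) ^ 3 - (W.c₆ : ℚ) ^ 2 = 1728 * (W.Δ : ℚ) := by
    exact_mod_cast W.c_relation.symm
  have hcop : IsCoprime d.P4 d.PD := by
    refine (@Polynomial.isCoprime_iff_aeval_ne_zero_of_isAlgClosed ℚ _ (AlgebraicClosure ℚ) _ _ _
      d.P4 d.PD).2 ?_
    intro z
    have h := d.not_c4_d (l := 1) (m := z) (Or.inl one_ne_zero)
    rwa [homEval_eq_of_ne_zero (by rw [natDegree_map]; exact d.deg4) one_ne_zero,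
      homEval_eq_of_ne_zero (by rw [natDegree_map]; exact d.degD) one_ne_zero, one_pow, one_mul,
      one_pow, one_mul, div_one, eval_map_algebraMap, eval_map_algebraMap] at h
  obtain ⟨U, V, hUV⟩ := hcop
  obtain ⟨R, hR0, hR⟩ := exists_denominator {d.P4, d.P6, d.PD, U, V}
  obtain ⟨e, Ro, hRodd, hRe⟩ := Nat.exists_eq_two_pow_mul_odd hR0
  obtain ⟨q4, hq4⟩ := hR d.P4 (by simp)
  obtain ⟨q6, hq6⟩ := hR d.P6 (by simp)
  obtain ⟨qD, hqD⟩ := hR d.PD (by simp)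
  obtain ⟨qU, hqU⟩ := hR U (by simp)
  obtain ⟨qV, hqV⟩ := hR V (by simp)
  have hbez : qU * q4 + qV * qD = (R : ℤ[X]) ^ 2 := by
    apply Polynomial.map_injective (Int.castRingHom ℚ) (RingHom.injective_int _)
    simp only [Polynomial.map_add, Polynomial.map_mul, Polynomial.map_pow, Polynomial.map_natCast,
      hq4, hqD, hqU, hqV]
    linear_combination (R : ℚ[X]) ^ 2 * hUV
  have hC : ∀ p : ℚ[X], (R : ℚ[X]) * p = C ((2 : ℚ) ^ e * ((Ro : ℤ) : ℚ)) * p := fun p => by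
    rw [← C_eq_natCast, hRe]; push_cast; rfl
  rw [hC] at hq4 hq6 hqD
  set Kn : ℕ := 729 * 15 * W.Δ.natAbs * Ro with hKn
  have hΔodd : Odd W.Δ.natAbs := by
    rw [Int.natAbs_odd, Int.odd_iff]
    omega
  have hKodd : Odd ((Kn : ℤ)) := by
    rw [Int.odd_coe_nat, hKn]
    exact (((by decide : Odd (729 * 15))).mul hΔodd).mul hRodd
  set M : ℕ := Ro * Kn with hM
  have hs : Odd ((Ro : ℤ) * (Kn : ℤ)) := ((Int.odd_coe_nat Ro).2 hRodd).mul hKodd
  have hRo0 : (Ro : ℤ) ≠ 0 := fun h => by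
    rw [Int.natCast_eq_zero] at h
    simp [h] at hRodd
  obtain ⟨t, A, B, E, ht4, hA, hAodd, hB, hB4, hE⟩ :=
    pencil_two_values h4 h32 (c6_mod_of_supersingular W h2 h4) d 1 ((Ro : ℤ) * Kn) hs
  have htodd : Odd t := Int.odd_iff.2 (by omega)
  norm_num only [show (((8 * 1 : ℤ)) : ℚ) = 8 by norm_num] at hA hB hE
  obtain ⟨a, hva, hat, hKa, hq4a⟩ :=
    exists_scaled_value 20 40 d.P4 W.c₄ d.coeff_zero4 e Ro Kn hRo0 hKodd q4 hq4 t A htodd hA
  obtain ⟨b, hvb, hbt, hKb, -⟩ :=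
    exists_scaled_value 30 60 d.P6 W.c₆ d.coeff_zero6 e Ro Kn hRo0 hKodd q6 hq6 t B htodd hB
  obtain ⟨e', hve, -, hKe, hqDe⟩ :=
    exists_scaled_value 12 25 d.PD 1 (by rw [d.coeff_zeroD]; simp) e Ro Kn hRo0 hKodd qD hqD t E
      htodd hE
  have haodd : Odd a := (Int.odd_mul.1 (hat ▸ hAodd)).2
  have hb4 : b % 4 = 3 := by
    rw [hbt, Int.mul_emod, ht4] at hB4
    omega
  -- rescaled values
  have hMq : ((M : ℚ) / 4) = (1 / 4 : ℚ) * (((Ro : ℤ) * Kn : ℤ) : ℚ) := by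
    rw [hM]; push_cast; ring
  have hval : ∀ (m : ℕ) (p : ℚ[X]), homEval m p (2 : ℚ) ((M : ℚ) / 4) =
      (1 / 4 : ℚ) ^ m * homEval m p 8 (((Ro : ℤ) * Kn : ℤ) : ℚ) := fun m p => by
    rw [hMq, ← homEval_mul_mul, show (1 / 4 : ℚ) * 8 = 2 by norm_num]
  have h4' : homEval 20 d.P4 2 ((M : ℚ) / 4) = (a : ℚ) := by rw [hval, hva]; ring
  have h6' : homEval 30 d.P6 2 ((M : ℚ) / 4) = (b : ℚ) := by rw [hval, hvb]; ring
  have hD' : homEval 12 d.PD 2 ((M : ℚ) / 4) = ((2 * e' : ℤ) : ℚ) := by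
    rw [hval, hve]; push_cast; ring
  have hsyz : a ^ 3 - b ^ 2 = 1728 * W.Δ * (2 * e') ^ 5 := by
    have h := d.syzygy 2 ((M : ℚ) / 4)
    rw [h4', h6', hD', hrel] at h
    exact_mod_cast h
  have hco : ∀ i : ℕ, IsCoprime (Kn : ℤ) ((2 : ℤ) ^ i) := fun i => by
    obtain ⟨l, hl⟩ := hKodd
    exact IsCoprime.pow_right ⟨1, -l, by linear_combination hl⟩
  have ha : (Kn : ℤ) ∣ a - 2 ^ 20 * W.c₄ := (hco 40).dvd_of_dvd_mul_left (by
    rw [show (2 : ℤ) ^ 40 * (a - 2 ^ 20 * W.c₄) = 2 ^ 40 * a - W.c₄ * 8 ^ 20 by ring]; exact hKa)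
  have hb : (Kn : ℤ) ∣ b - 2 ^ 30 * W.c₆ := (hco 60).dvd_of_dvd_mul_left (by
    rw [show (2 : ℤ) ^ 60 * (b - 2 ^ 30 * W.c₆) = 2 ^ 60 * b - W.c₆ * 8 ^ 30 by ring]; exact hKb)
  have hd : (Kn : ℤ) ∣ 2 * e' - 2 ^ 12 := (hco 24).dvd_of_dvd_mul_left (by
    rw [show (2 : ℤ) ^ 24 * (2 * e' - 2 ^ 12) = 2 ^ 25 * e' - 1 * 8 ^ 12 by ring]; exact hKe)
  obtain ⟨W₂, h24, h26⟩ := exists_local_model_two haodd hb4
    ⟨27 * W.Δ * (2 * e') ^ 5, by rw [hsyz]; ring⟩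
  obtain ⟨W₃, h34, h36⟩ := exists_scaled W 32
  have h729 : (729 : ℤ) ∣ (Kn : ℤ) := by
    exact_mod_cast (Dvd.intro (15 * W.Δ.natAbs * Ro) (by rw [hKn]; ring) : 729 ∣ Kn)
  obtain ⟨W', hc4, hc6⟩ := exists_model_of_local W₂ W₃ h24 h26
    (h729.trans (by rw [h34]; exact ha)) (h729.trans (by rw [h36]; exact hb))
  have hΔ' : W'.Δ = W.Δ * (2 * e') ^ 5 := by
    have h := W'.c_relation
    rw [hc4, hc6, hsyz] at h
    linarith
  have hqd : ∀ q : ℕ, q.Prime → q ≠ 2 → q ∣ Kn → ¬ (q : ℤ) ∣ 2 * e' := by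
    intro q hq hq2 hqK h
    have h1 : (q : ℤ) ∣ 2 ^ 12 := by
      simpa using dvd_sub h ((Int.natCast_dvd_natCast.2 hqK).trans hd)
    exact hq2 ((Nat.prime_dvd_prime_iff_eq hq Nat.prime_two).1
      (hq.dvd_of_dvd_pow (by exact_mod_cast h1 : q ∣ 2 ^ 12)))
  have hΔ'0 : W'.Δ ≠ 0 := by
    rw [hΔ']
    refine mul_ne_zero hΔ (pow_ne_zero _ fun h0 => hqd 3 Nat.prime_three (by norm_num) ?_ ?_)
    · exact ⟨243 * 15 * W.Δ.natAbs * Ro, by rw [hKn]; ring⟩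
    · rw [h0]; exact dvd_zero _
  refine ⟨M, W', hΔ'0, ?_, ?_, by rw [hc4, h4'], by rw [hc6, h6'], fun q hq hq2 hq15 => ?_⟩
  · intro q hq hqΔ hqc
    have : Fact q.Prime := ⟨hq⟩
    rw [hc4] at hqc
    have hq2 : q ≠ 2 := fun h => by
      subst h
      exact Int.not_odd_iff.2 (Int.emod_eq_zero_of_dvd (by exact_mod_cast hqc)) haodd
    rw [hΔ'] at hqΔ
    have hqI : Prime (q : ℤ) := Nat.prime_iff_prime_int.1 hq
    by_cases hqK : q ∣ Kn
    · have hqD : ¬ (q : ℤ) ∣ (2 * e') ^ 5 := fun h => hqd q hq hq2 hqK (hqI.dvd_of_dvd_pow h)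
      have hΔq : (q : ℤ) ∣ W.Δ := (hqI.dvd_or_dvd hqΔ).resolve_right hqD
      have h1 : (q : ℤ) ∣ 2 ^ 20 * W.c₄ := by
        simpa using dvd_sub hqc ((Int.natCast_dvd_natCast.2 hqK).trans ha)
      refine hW q hq hΔq ((hqI.dvd_or_dvd h1).resolve_left fun h => hq2 ?_)
      exact (Nat.prime_dvd_prime_iff_eq hq Nat.prime_two).1
        (hq.dvd_of_dvd_pow (by exact_mod_cast h : q ∣ 2 ^ 20))
    · have hΔq : ¬ (q : ℤ) ∣ W.Δ := fun h => hqK ((Int.natCast_dvd.1 h).trans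
        ⟨729 * 15 * Ro, by rw [hKn]; ring⟩)
      have hcD : (q : ℤ) ∣ 2 * e' := hqI.dvd_of_dvd_pow ((hqI.dvd_or_dvd hqΔ).resolve_left hΔq)
      have hqR : ¬ q ∣ R := fun h => by
        rw [hRe] at h
        rcases hq.dvd_mul.1 h with h | h
        · exact hq2 ((Nat.prime_dvd_prime_iff_eq hq Nat.prime_two).1 (hq.dvd_of_dvd_pow h))
        · exact hqK (h.trans ⟨729 * 15 * W.Δ.natAbs, by rw [hKn]; ring⟩)
      set φ := Int.castRingHom (ZMod q)
      have h2q : ((2 : ℤ) : ZMod q) ≠ 0 := fun h => by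
        rw [ZMod.intCast_zmod_eq_zero_iff_dvd] at h
        exact hq2 ((Nat.prime_dvd_prime_iff_eq hq Nat.prime_two).1 (by exact_mod_cast h))
      have h8 : φ 8 ≠ 0 := by
        rw [show (8 : ℤ) = 2 ^ 3 by norm_num, map_pow]
        exact pow_ne_zero _ h2q
      have z4 : homEval 20 (q4.map φ) (φ 8) (φ ((Ro : ℤ) * Kn)) = 0 := by
        rw [← map_homEval, ← hq4a, map_mul, map_mul φ ((2 : ℤ) ^ 40),
          show φ a = 0 from (ZMod.intCast_zmod_eq_zero_iff_dvd _ _).2 hqc, mul_zero, mul_zero]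
      have zD : homEval 12 (qD.map φ) (φ 8) (φ ((Ro : ℤ) * Kn)) = 0 := by
        rw [← map_homEval, ← hqDe, show (2 : ℤ) ^ e * (Ro : ℤ) * (2 ^ 25 * e') =
          2 ^ e * (Ro : ℤ) * 2 ^ 24 * (2 * e') by ring, map_mul,
          show φ (2 * e') = 0 from (ZMod.intCast_zmod_eq_zero_iff_dvd _ _).2 hcD, mul_zero]
      have b4 : q4.natDegree ≤ 20 := by
        rw [← natDegree_map_eq_of_injective (RingHom.injective_int (Int.castRingHom ℚ)), hq4]
        exact (natDegree_C_mul_le _ _).trans d.deg4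
      have bD : qD.natDegree ≤ 12 := by
        rw [← natDegree_map_eq_of_injective (RingHom.injective_int (Int.castRingHom ℚ)), hqD]
        exact (natDegree_C_mul_le _ _).trans d.degD
      rw [homEval_eq_of_ne_zero (natDegree_map_le.trans b4) h8, mul_eq_zero] at z4
      rw [homEval_eq_of_ne_zero (natDegree_map_le.trans bD) h8, mul_eq_zero] at zD
      have h4z := z4.resolve_left (pow_ne_zero _ h8)
      have hDz := zD.resolve_left (pow_ne_zero _ h8)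
      have := congrArg (fun r => (r.map φ).eval (φ ((Ro : ℤ) * Kn) / φ 8)) hbez
      simp only [Polynomial.map_add, Polynomial.map_mul, Polynomial.map_pow, Polynomial.map_natCast,
        eval_add, eval_mul, eval_pow, eval_natCast, h4z, hDz, mul_zero, add_zero] at this
      exact hqR ((ZMod.natCast_eq_zero_iff _ _).1 (pow_eq_zero_iff two_ne_zero |>.1 this.symm))
  · rw [hΔ']
    exact (dvd_pow (dvd_mul_right 2 e') (by norm_num)).mul_left _
  · have hqI : Prime (q : ℤ) := Nat.prime_iff_prime_int.1 hq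
    have hqK : q ∣ Kn := (Int.natCast_dvd.1 hq15).trans
      ⟨729 * Ro, by rw [hKn, Int.natAbs_mul, show (15 : ℤ).natAbs = 15 from rfl]; ring⟩
    rw [hΔ', hqI.dvd_mul]
    exact or_iff_left fun h => hqd q hq hq2 hqK (hqI.dvd_of_dvd_pow h)

end Fermat.Agent.General
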