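import Fermat.Agent.Residual.FamilyTorsion
import Fermat.Agent.Switch.Model
import Fermat.Agent.Mult.Main
import Fermat.Agent.EC.Torsion
import Fermat.Agent.ECRed.Good

/-!
An element of inertia at five which moves `√5` and fixes a root of the quartic of the Hesse pencil:
at good reduction inertia fixes the whole three-torsion, at multiplicative reduction the Tate line.
-/

set_option autoImplicit false
set_option linter.style.haveILetI false

noncomputable section

namespace Fermat.Agent.General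

open WeierstrassCurve WeierstrassCurve.Affine Fermat.Agent.Switch Fermat.Agent.Residual

local notation "Qbar" => AlgebraicClosure ℚ

/-- A fixed point of order three gives a fixed root of the quartic. -/
theorem exists_root_fixed_of_point (W : WeierstrassCurve ℤ) (hΔ : W.Δ ≠ 0)
    (σ : Qbar ≃ₐ[ℚ] Qbar) {P : ECRed.QbarPoint W} (hP0 : P ≠ 0) (h3 : (3 : ℕ) • P = 0)
    (hfix : σ • P = P) :
    ∃ w : Qbar, σ w = w ∧ hesseD (W.c₄ : Qbar) (W.c₆ : Qbar) w 1 = 0 := by
  rcases P with _ | ⟨x, y, hxy⟩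
  · exact absurd rfl hP0
  refine ⟨12 * x + (W.b₂ : Qbar), ?_, ?_⟩
  · rw [Point.algEquiv_smul_def, Point.map_some] at hfix
    have hx : σ x = x := (Point.some.inj hfix).1
    rw [map_add, map_mul, hx, map_ofNat, map_intCast]
  let E : WeierstrassCurve.Affine ℚ := W.map (Int.castRingHom ℚ)
  let S : WeierstrassCurve.Affine ℚ := short (-27 * E.c₄) (-54 * E.c₆)
  have hm : IsModel E S 1 := ⟨rfl, rfl, rfl,
    show -27 * E.c₄ = _ by rw [one_pow, mul_one], show -54 * E.c₆ = _ by rw [one_pow, mul_one]⟩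
  have hEΔ : E.Δ ≠ 0 := by
    rw [show E.Δ = ((W.Δ : ℤ) : ℚ) from WeierstrassCurve.map_Δ ..]; exact_mod_cast hΔ
  have h1 : algebraMap ℚ Qbar 1 ≠ 0 := by simp
  haveI : (S⁄Qbar).IsShortNF := ⟨hm.baseChange.a₁, hm.baseChange.a₂, hm.baseChange.a₃⟩
  have h3' := congrArg (hm.baseChange.pointEquiv h1 (baseChange_Δ_ne_zero hEΔ)) h3
  rw [map_nsmul, map_zero] at h3'
  have h3'' : (3 : ℕ) • (hm.baseChange (L := Qbar)).pointMap h1 (baseChange_Δ_ne_zero hEΔ)
      (Point.some x y hxy) = 0 := h3'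
  rw [IsModel.pointMap_some, three_nsmul_some_eq_zero_iff] at h3''
  have e4 : (S⁄Qbar).a₄ = -27 * (W.c₄ : Qbar) := by
    change algebraMap ℚ Qbar (-27 * E.c₄) = _
    rw [show E.c₄ = (W.c₄ : ℚ) from WeierstrassCurve.map_c₄ ..]
    simp
  have e6 : (S⁄Qbar).a₆ = -54 * (W.c₆ : Qbar) := by
    change algebraMap ℚ Qbar (-54 * E.c₆) = _
    rw [show E.c₆ = (W.c₆ : ℚ) from WeierstrassCurve.map_c₆ ..]
    simp
  have eb : (E⁄Qbar).b₂ = (W.b₂ : Qbar) := by
    change ((W.map (Int.castRingHom ℚ)).map (algebraMap ℚ Qbar)).b₂ = _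
    rw [WeierstrassCurve.map_b₂, WeierstrassCurve.map_b₂]
    simp
  rw [e4, e6, show modelX (E⁄Qbar) (algebraMap ℚ Qbar 1) x = 3 * (12 * x + (W.b₂ : Qbar)) by
    simp [modelX, eb]; ring, triplePoly_short] at h3''
  exact (mul_eq_zero.1 h3'').resolve_left (by norm_num)

/-- An element of inertia at `5` fixes a root of the quartic of the pencil and moves `√5`. -/
theorem exists_root_fixed_sqrt_five_moved (W : WeierstrassCurve ℤ) (hΔ : W.Δ ≠ 0)
    (hs : W.IsSemistableModel) :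
    ∃ (σ : Qbar ≃ₐ[ℚ] Qbar) (w t : Qbar), t ^ 2 = 5 ∧ σ t ≠ t ∧ σ w = w ∧
      hesseD (W.c₄ : Qbar) (W.c₆ : Qbar) w 1 = 0 := by
  have h5 : Nat.Prime 5 := by decide
  obtain ⟨A, hA⟩ := Galois.exists_liesOverPrime h5
  obtain ⟨t, ht⟩ := IsAlgClosed.exists_pow_nat_eq (5 : Qbar) two_pos
  obtain ⟨σ, hσ, hσt⟩ := Mult.exists_inertia_apply_ne h5 hA two_ne_zero
    (t := t) (r := (5 : ℚ)) (by norm_num) (by rw [ht]; norm_num)
    (by
      haveI := Fact.mk h5
      have h1 : padicValRat 5 (5 : ℚ) = 1 := by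
        exact_mod_cast padicValRat.self (p := 5) (by norm_num)
      rw [h1]; decide)
  haveI : Fact (Nat.Prime 3) := ⟨Nat.prime_three⟩
  obtain ⟨P, hP0, h3, hfix⟩ : ∃ P : ECRed.QbarPoint W, P ≠ 0 ∧ (3 : ℕ) • P = 0 ∧ σ • P = P := by
    by_cases hd : ((5 : ℕ) : ℤ) ∣ W.Δ
    · have hM := Mult.IsMultPlace.of_semistable hΔ hs h5 hd hA
      obtain ⟨P, hP, hP0⟩ := Submodule.exists_mem_ne_zero_of_ne_bot
        (Mult.tateLine_ne_bot_and_ne_top hM Nat.prime_three).1
      refine ⟨P.1, fun h => hP0 (Subtype.ext h), ?_,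
        congrArg Subtype.val (Mult.inertia_smul_of_mem hM (by norm_num) (by decide) hσ hP)⟩
      rw [← natCast_zsmul]
      exact (Submodule.mem_torsionBy_iff _ _).1 P.2
    · haveI : ((W.map (Int.castRingHom ℚ))⁄Qbar).IsElliptic := by
        rw [isElliptic_iff, isUnit_iff_ne_zero]
        change ((W.map (Int.castRingHom ℚ)).map (algebraMap ℚ Qbar)).Δ ≠ 0
        rw [map_Δ, map_Δ, eq_intCast, map_intCast]
        exact_mod_cast hΔ
      have hc := EC.card_torsionBy (W := (W.map (Int.castRingHom ℚ))⁄Qbar) (n := 3) (by norm_num)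
      haveI := Nat.finite_of_card_ne_zero (hc.trans_ne (by norm_num))
      haveI : Nontrivial (Submodule.torsionBy ℤ
          ((W.map (Int.castRingHom ℚ))⁄Qbar).Point ((3 : ℕ) : ℤ)) :=
        Finite.one_lt_card_iff_nontrivial.1 (hc.symm ▸ (by norm_num : 1 < 3 ^ 2))
      obtain ⟨P, hP⟩ := exists_ne (0 : Submodule.torsionBy ℤ
          ((W.map (Int.castRingHom ℚ))⁄Qbar).Point ((3 : ℕ) : ℤ))
      have h3 : (3 : ℕ) • P.1 = 0 := by
        rw [← natCast_zsmul]
        exact (Submodule.mem_torsionBy_iff _ _).1 P.2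
      exact ⟨P.1, fun h => hP (Subtype.ext h), h3,
        ECRed.smul_eq_self_of_mem_inertia h5 hA hd (by norm_num) hσ h3⟩
  obtain ⟨w, hw, hD⟩ := exists_root_fixed_of_point W hΔ σ hP0 h3 hfix
  exact ⟨σ, w, t, ht, hσt, hw, hD⟩

end Fermat.Agent.General

end
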