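/-
Level lowering away from `p` at every squarefree level: when `p` is a prime of good reduction in
the level, start from the level of the conductor, which does not contain it.
-/
import Fermat.Agent.Ribet.General.Lower
import Fermat.Agent.General.Main

set_option autoImplicit false

open WeierstrassCurve
open scoped WeierstrassCurve.Affine

namespace Fermat.Agent.General

/-- **Level lowering away from `p`** at every squarefree level of residual modularity. -/
theorem isResiduallyModularOfLevel_div {W : WeierstrassCurve ℤ} {p : ℕ} [Fact p.Prime]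
    (hp2 : p ≠ 2) (hΔ : W.Δ ≠ 0) (hW : W.IsSemistableModel)
    (hcard₁ : Nat.card (Submodule.torsionBy ℤ
      ((W.map (Int.castRingHom ℚ))⁄(AlgebraicClosure ℚ)).Point p) = p ^ 2)
    (hker : GaloisFactorsThroughFiniteLevel
      (WeierstrassCurve.Affine.Point.galoisRepModuleEnd (K := AlgebraicClosure ℚ) ℚ
        (W.map (Int.castRingHom ℚ)) p))
    (hirr : W.ModRepIsIrreducible p) {M q : ℕ} (hq : q.Prime) (hqp : q ≠ p)
    (hqM : q ∣ M) (hM : Squarefree M)
    (hunr : ((W.map (Int.castRingHom ℚ)).residualGaloisRepOf p hcard₁ hker).IsUnramifiedAt q)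
    (hres : W.IsResiduallyModularOfLevel p M) :
    W.IsResiduallyModularOfLevel p (M / q) := by
  by_cases hpM : ¬ (p : ℤ) ∣ W.Δ → ¬ p ∣ M
  · exact Ribet.General.isResiduallyModularOfLevel_div hp2 hΔ hW hcard₁ hker hirr hq hqp hqM hM
      hpM hunr hres
  push Not at hpM
  have hp : p.Prime := Fact.out
  obtain ⟨N, -, hNsq, hNdvd, hmod⟩ := exactConductorLevel W hΔ hW
  have hpN : ¬ p ∣ N := fun h => hpM.1 ((hNdvd p hp).mp h)
  obtain ⟨M', hd, hmod', hr⟩ := Ribet.General.exists_dvd_residualLevel hΔ hW hp2 hirr hNsq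
    (fun h => absurd h hpN) (Wiring.isResiduallyModularOfLevel_of_congr hp hmod
      (fun ℓ hℓ hℓN hd => hℓN ((hNdvd ℓ hℓ).2 hd)) fun ℓ _ _ _ _ => by simp)
  obtain ⟨d⟩ := Ribet.Avoid.nonempty_curveResidual hΔ hW hp2 hirr
  have hM'sq : Squarefree M' := hNsq.squarefree_of_dvd hd
  have hqr : ¬ q ∣ Ribet.Avoid.residualLevel W p := fun h => by
    obtain ⟨hqp', hd', hv⟩ := (Ribet.Avoid.prime_dvd_residualLevel_iff hΔ hq).mp h
    exact (d.hram q hq hqp').mp ⟨hd', hv⟩ (Ribet.Glue.isUnramifiedAt_of_torsRep d hunr)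
  have : NeZero M := ⟨hM.ne_zero⟩
  obtain ⟨c, rfl⟩ := hqM
  rw [Nat.mul_div_cancel_left _ hq.pos]
  have : NeZero c := ⟨right_ne_zero_of_mul hM.ne_zero⟩
  refine Newform.isResiduallyModularOfLevel_of_dvd ?_ hmod'
  rw [← Nat.prod_primeFactors_of_squarefree hM'sq]
  refine Finset.prod_primes_dvd _
    (fun x hx => Nat.prime_iff.mp (Nat.prime_of_mem_primeFactors hx)) fun x hx => ?_
  obtain ⟨hxp, hxM', -⟩ := Nat.mem_primeFactors.mp hx
  have hxr : x ∣ Ribet.Avoid.residualLevel W p :=
    hr x hxp hxM' fun h => hpN (h ▸ hxM'.trans hd)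
  rcases hxp.dvd_mul.mp (Ribet.Glue.residualLevel_dvd d hirr hres hxp hxr) with h | h
  · exact absurd ((Nat.prime_dvd_prime_iff_eq hxp hq).mp h ▸ hxr) hqr
  · exact h

end Fermat.Agent.General
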