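/-
Integer combinations of monomials in two variables given by lists: derivatives, comparison by
coefficients, and divisibility of their values at `(16 α, 8 β)`.
-/
import Mathlib.RingTheory.Derivation.Basic
import Mathlib.Algebra.BigOperators.Group.List.Basic
import Mathlib.Algebra.BigOperators.Group.Finset.Basic
import Mathlib.Tactic.Ring
import Mathlib.Tactic.Linarith

set_option autoImplicit false

noncomputable section

namespace Fermat.Agent.General

/-- A term: exponent of the first variable, exponent of the second, coefficient. -/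
abbrev PencilTerm : Type := ℕ × ℕ × ℤ

/-- The value of a list of terms. -/
def termsEval {R : Type*} [CommRing R] (l : List PencilTerm) (x y : R) : R :=
  (l.map fun m => (m.2.2 : R) * x ^ m.1 * y ^ m.2.1).sum

/-- The derivative for `x' = 20 y`, `y' = 30 x ^ 2`. -/
def termsDeriv : List PencilTerm → List PencilTerm
  | [] => []
  | (a, b, c) :: t =>
    (a - 1, b + 1, 20 * a * c) :: (a + 2, b - 1, 30 * b * c) :: termsDeriv t

/-- Multiply by a scalar and a power of `x`. -/
def termsScale (n : ℤ) (j : ℕ) (l : List PencilTerm) : List PencilTerm :=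
  l.map fun m => (m.1 + j, m.2.1, n * m.2.2)

/-- The coefficient of a monomial. -/
def termsCoeff (l : List PencilTerm) (a b : ℕ) : ℤ :=
  ((l.filter fun m => m.1 == a && m.2.1 == b).map fun m => m.2.2).sum

/-- Equality of all coefficients. -/
def termsCheck (l r : List PencilTerm) : Bool :=
  (l ++ r).all fun m => termsCoeff l m.1 m.2.1 == termsCoeff r m.1 m.2.1

section Ring

variable {R : Type*} [CommRing R] (x y : R)

theorem termsEval_cons (m : PencilTerm) (l : List PencilTerm) :
    termsEval (m :: l) x y = (m.2.2 : R) * x ^ m.1 * y ^ m.2.1 + termsEval l x y := by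
  simp [termsEval]

theorem termsEval_append (l r : List PencilTerm) :
    termsEval (l ++ r) x y = termsEval l x y + termsEval r x y := by
  simp [termsEval]

theorem termsEval_scale (n : ℤ) (j : ℕ) (l : List PencilTerm) :
    termsEval (termsScale n j l) x y = (n : R) * x ^ j * termsEval l x y := by
  induction l with
  | nil => simp [termsScale, termsEval]
  | cons m l ih =>
    rw [termsScale, List.map_cons, termsEval_cons, termsEval_cons, ← termsScale, ih]
    push_cast
    ring

theorem termsEval_eq_sum (l : List PencilTerm) (s : Finset (ℕ × ℕ))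
    (hs : ∀ m ∈ l, (m.1, m.2.1) ∈ s) :
    termsEval l x y = ∑ k ∈ s, (termsCoeff l k.1 k.2 : R) * x ^ k.1 * y ^ k.2 := by
  induction l with
  | nil => simp [termsEval, termsCoeff]
  | cons m l ih =>
    have hc : ∀ k : ℕ × ℕ, termsCoeff (m :: l) k.1 k.2 =
        (if (m.1, m.2.1) = k then m.2.2 else 0) + termsCoeff l k.1 k.2 := by
      intro k
      by_cases h : (m.1, m.2.1) = k
      · subst h; simp [termsCoeff]
      · rw [if_neg h, zero_add, termsCoeff, List.filter_cons_of_neg, termsCoeff]
        intro h'
        simp only [Bool.and_eq_true, beq_iff_eq] at h'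
        exact h (Prod.ext h'.1 h'.2)
    rw [termsEval_cons, ih fun m' hm' => hs m' (List.mem_cons_of_mem m hm')]
    simp only [hc, Int.cast_add, add_mul, Finset.sum_add_distrib]
    congr 1
    rw [Finset.sum_eq_single (m.1, m.2.1)]
    · simp
    · intro k _ hk
      simp [Ne.symm hk]
    · intro h
      exact absurd (hs m (List.mem_cons_self ..)) h

theorem termsEval_congr {l r : List PencilTerm} (h : termsCheck l r = true) :
    termsEval l x y = termsEval r x y := by
  classical
  set s : Finset (ℕ × ℕ) := ((l ++ r).map fun m => (m.1, m.2.1)).toFinset with hs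
  have hmem : ∀ m ∈ l ++ r, (m.1, m.2.1) ∈ s := fun m hm =>
    List.mem_toFinset.2 (List.mem_map.2 ⟨m, hm, rfl⟩)
  rw [termsEval_eq_sum x y l s fun m hm => hmem m (List.mem_append_left r hm),
    termsEval_eq_sum x y r s fun m hm => hmem m (List.mem_append_right l hm)]
  refine Finset.sum_congr rfl fun k hk => ?_
  obtain ⟨m, hm, rfl⟩ := List.mem_map.1 (List.mem_toFinset.1 hk)
  rw [termsCheck, List.all_eq_true] at h
  rw [beq_iff_eq.1 (h m hm)]

theorem deriv_termsEval {S : Type*} [CommRing S] [Algebra S R] (D : Derivation S R R)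
    (hx : D x = 20 * y) (hy : D y = 30 * x ^ 2) (l : List PencilTerm) :
    D (termsEval l x y) = termsEval (termsDeriv l) x y := by
  induction l with
  | nil => simp [termsEval, termsDeriv]
  | cons m l ih =>
    obtain ⟨a, b, c⟩ := m
    rw [termsEval_cons, map_add, ih, termsDeriv, termsEval_cons, termsEval_cons, ← add_assoc]
    congr 1
    simp only [Derivation.leibniz, Derivation.leibniz_pow, Derivation.map_intCast, hx, hy,
      smul_eq_mul, nsmul_eq_mul]
    push_cast
    rcases a with _ | a <;> rcases b with _ | b <;>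
      simp only [Nat.add_sub_cancel, Nat.zero_sub, pow_succ, Nat.cast_zero, Nat.cast_add,
        Nat.cast_one] <;> ring

end Ring

/-- The terms whose value at `(16 α, 8 β) * 8 ^ j` is not visibly divisible by `2 ^ n`. -/
def termsKeep (n j : ℕ) (l : List PencilTerm) : List PencilTerm :=
  l.filter fun m => (m.2.2 * 2 ^ (4 * m.1 + 3 * m.2.1 + 3 * j)) % 2 ^ n != 0

theorem dvd_termsEval_sub (n j : ℕ) (l : List PencilTerm) (α β k : ℤ) :
    (2 : ℤ) ^ n ∣ termsEval l (16 * α) (8 * β) * (8 * k) ^ j -
      termsEval (termsKeep n j l) (16 * α) (8 * β) * (8 * k) ^ j := by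
  induction l with
  | nil => simp [termsKeep, termsEval]
  | cons m l ih =>
    by_cases h : (m.2.2 * 2 ^ (4 * m.1 + 3 * m.2.1 + 3 * j)) % 2 ^ n = 0
    · rw [termsKeep, List.filter_cons_of_neg (by simp [h]), ← termsKeep, termsEval_cons,
        add_mul, add_sub_assoc]
      refine dvd_add ?_ ih
      refine (Int.dvd_of_emod_eq_zero h).trans (Dvd.intro (α ^ m.1 * β ^ m.2.1 * k ^ j) ?_)
      rw [show (16 : ℤ) = 2 ^ 4 by norm_num, show (8 : ℤ) = 2 ^ 3 by norm_num, mul_pow, mul_pow,
        mul_pow, ← pow_mul, ← pow_mul, ← pow_mul, pow_add, pow_add, Int.cast_id]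
      ring
    · rw [termsKeep, List.filter_cons_of_pos (by simp [h]), ← termsKeep, termsEval_cons,
        termsEval_cons, add_mul, add_mul, add_sub_add_left_eq_sub]
      exact ih

end Fermat.Agent.General

end
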