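/-
The coefficients of the pencil with the same five-torsion are the tabulated combinations of
`c4`, `c6`.
-/
import Fermat.Agent.Switch.Data
import Fermat.Agent.General.PencilTwoSum
import Fermat.Agent.General.PencilTwoTables

set_option autoImplicit false

noncomputable section

namespace Fermat.Agent.General

open Polynomial Fermat.Agent.Switch
open scoped Differential

local instance instDifferentialPencilTwo : Differential FormRing :=
  ⟨icoDeriv.restrictScalars ℤ⟩

local notation "U" => (MvPolynomial.X 0 : FormRing)
local notation "V" => (MvPolynomial.X 1 : FormRing)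
local notation "Qbar" => AlgebraicClosure ℚ

/-- The table satisfies the recursion of the coefficients, `n` being the degree. -/
def pencilTableOK (n : ℕ) (T : List (List PencilTerm)) : Bool :=
  termsCheck (T.getD 1 []) (termsDeriv (T.getD 0 [])) &&
    (List.range (n - 1)).all fun i =>
      termsCheck (termsScale ((i : ℤ) + 2) 0 (T.getD (i + 2) []))
        (termsDeriv (T.getD (i + 1) []) ++ termsScale (-(11 * ((n : ℤ) - i))) 1 (T.getD i []))

theorem coeff_eq_table {n : ℕ} {T : List (List PencilTerm)} (hT : pencilTableOK n T = true)
    (P : FormRing[X])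
    (hP : pencilDeriv P = (n : FormRing[X]) * (C (11 * c4form U V) * X) * P) (E : FormRing)
    (hE : (E)′ = 0) (h0 : P.coeff 0 = E * termsEval (T.getD 0 []) (c4form U V) (c6form U V)) :
    ∀ i ≤ n, P.coeff i = E * termsEval (T.getD i []) (c4form U V) (c6form U V) := by
  rw [pencilTableOK, Bool.and_eq_true, List.all_eq_true] at hT
  set x := c4form U V
  set y := c6form U V
  have hδ : ∀ l, (E * termsEval l x y)′ = E * termsEval (termsDeriv l) x y := fun l => by
    rw [Derivation.leibniz, hE, smul_eq_mul, smul_eq_mul, mul_zero, add_zero,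
      deriv_termsEval x y _ (deriv_c4form _ icoDeriv_U icoDeriv_V)
        (deriv_c6form _ icoDeriv_U icoDeriv_V)]
  have hP' : Differential.mapCoeffs P = derivative P +
      C (11 * x) * (Polynomial.X * ((n : FormRing[X]) * P - Polynomial.X * derivative P)) := by
    rw [pencilDeriv_apply, sub_eq_iff_eq_add] at hP
    rw [hP]
    ring
  have key : ∀ i, i < n → P.coeff i = E * termsEval (T.getD i []) x y ∧
      P.coeff (i + 1) = E * termsEval (T.getD (i + 1) []) x y := by
    intro i
    induction i with
    | zero =>
      intro _
      refine ⟨h0, ?_⟩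
      have h := congrArg (fun q => coeff q 0) hP'
      simp [coeff_derivative] at h
      rw [zero_add, termsEval_congr x y hT.1, ← hδ, ← h0, h]
    | succ i ih =>
      intro hi
      obtain ⟨ih0, ih1⟩ := ih (by omega)
      refine ⟨ih1, ?_⟩
      have h := congrArg (fun q => coeff q (i + 1)) hP'
      have hX : (Polynomial.X * derivative P).coeff i = (i : FormRing) * P.coeff i := by
        cases i with
        | zero => simp
        | succ j =>
          rw [coeff_X_mul, coeff_derivative]
          push_cast
          ring
      have hn : ((n : FormRing[X]) * P).coeff i = (n : FormRing) * P.coeff i := by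
        rw [← C_eq_natCast, coeff_C_mul]
      simp only [Differential.coeff_mapCoeffs, coeff_add, coeff_C_mul, coeff_X_mul, coeff_sub,
        coeff_derivative, hn, hX] at h
      have hc := termsEval_congr x y (hT.2 i (List.mem_range.2 (by omega)))
      rw [termsEval_append, termsEval_scale, termsEval_scale] at hc
      rw [ih1, hδ, ih0] at h
      have h2 : ((i : FormRing) + 2) ≠ 0 := by
        have : (((i + 2 : ℕ)) : FormRing) ≠ 0 := by
          rw [← map_natCast (MvPolynomial.C : ℚ →+* FormRing), Ne, MvPolynomial.C_eq_zero]
          exact Nat.cast_ne_zero.2 (Nat.succ_ne_zero _)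
        simpa using this
      apply mul_left_cancel₀ h2
      push_cast at h hc
      linear_combination -h - E * hc
  intro i hi
  rcases i with _ | i
  · exact h0
  · exact (key i (by omega)).2

theorem pencilTab4_ok : pencilTableOK 20 pencilTab4 = true := by decide +kernel
theorem pencilTab6_ok : pencilTableOK 30 pencilTab6 = true := by decide +kernel
theorem pencilTabD_ok : pencilTableOK 12 pencilTabD = true := by decide +kernel

theorem map_termsEval {R S : Type*} [CommRing R] [CommRing S] (f : R →+* S)
    (l : List PencilTerm) (x y : R) : f (termsEval l x y) = termsEval l (f x) (f y) := by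
  induction l with
  | nil => simp [termsEval]
  | cons m l ih => simp [termsEval_cons, ih]

variable {C4 C6 : ℚ} (d : PencilData C4 C6)

theorem evalForm_termsEval (l : List PencilTerm) :
    evalForm d.u d.v (termsEval l (c4form U V) (c6form U V)) =
      algebraMap ℚ Qbar (termsEval l C4 C6) := by
  show (evalForm d.u d.v : FormRing →+* Qbar) _ = _
  rw [map_termsEval, map_termsEval]
  show termsEval l (evalForm d.u d.v _) (evalForm d.u d.v _) = _
  rw [(evalForm_forms d.u d.v).1, (evalForm_forms d.u d.v).2.1, d.c4_eq, d.c6_eq]

theorem coeff_P4 {i : ℕ} (hi : i ≤ 20) :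
    d.P4.coeff i = termsEval (pencilTab4.getD i []) C4 C6 := by
  apply (algebraMap ℚ Qbar).injective
  rw [← coeff_map, d.map4, ← (map_pencil_evalForm d.u d.v).1, coeff_map,
    coeff_eq_table pencilTab4_ok (pencil c4form U V) ?_ 1 ?_ ?_ i hi, RingHom.coe_coe, one_mul,
    evalForm_termsEval]
  · refine (deriv_c4form_of_eigen pencilDeriv pencilDeriv_fst pencilDeriv_snd).trans ?_
    norm_num
  · exact Derivation.map_one_eq_zero _
  · rw [pencil, ← constantCoeff_apply, map_c4form, one_mul]
    simp [pencilVec, pencilTab4, termsEval]

theorem coeff_P6 {i : ℕ} (hi : i ≤ 30) :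
    d.P6.coeff i = termsEval (pencilTab6.getD i []) C4 C6 := by
  apply (algebraMap ℚ Qbar).injective
  rw [← coeff_map, d.map6, ← (map_pencil_evalForm d.u d.v).2.1, coeff_map,
    coeff_eq_table pencilTab6_ok (pencil c6form U V) ?_ 1 ?_ ?_ i hi, RingHom.coe_coe, one_mul,
    evalForm_termsEval]
  · refine (deriv_c6form_of_eigen pencilDeriv pencilDeriv_fst pencilDeriv_snd).trans ?_
    norm_num
  · exact Derivation.map_one_eq_zero _
  · rw [pencil, ← constantCoeff_apply, map_c6form, one_mul]
    simp [pencilVec, pencilTab6, termsEval]

theorem coeff_PD {i : ℕ} (hi : i ≤ 12) :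
    d.PD.coeff i = termsEval (pencilTabD.getD i []) C4 C6 := by
  apply (algebraMap ℚ Qbar).injective
  apply mul_left_cancel₀ d.d_ne
  rw [← coeff_map, ← coeff_C_mul, d.mapD, ← (map_pencil_evalForm d.u d.v).2.2, coeff_map,
    coeff_eq_table pencilTabD_ok (pencil dform U V) ?_ (dform U V) ?_ ?_ i hi, RingHom.coe_coe,
    map_mul, evalForm_termsEval, (evalForm_forms d.u d.v).2.2]
  · refine (deriv_dform_of_eigen pencilDeriv pencilDeriv_fst pencilDeriv_snd).trans ?_
    norm_num
  · exact deriv_dform _ icoDeriv_U icoDeriv_V
  · rw [pencil, ← constantCoeff_apply, map_dform]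
    simp [pencilVec, pencilTabD, termsEval]

end Fermat.Agent.General

end
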