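import Fermat.Agent.Switch.Data
import Fermat.Agent.General.PencilTwoCoeff

/-! Two-adic values of the pencil with the same five-torsion. -/

set_option autoImplicit false

open Fermat.Agent.Switch

namespace Fermat.Agent.General

/-- The value of a tabulated form at `(8 k, s)` and the point `(16 α, 8 β)`. -/
def pencilValue (n : ℕ) (T : List (List PencilTerm)) (α β k s : ℤ) : ℤ :=
  ∑ i ∈ Finset.range (n + 1),
    termsEval (T.getD i []) (16 * α) (8 * β) * s ^ i * (8 * k) ^ (n - i)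

theorem cast_pencilValue (n : ℕ) (T : List (List PencilTerm)) (P : Polynomial ℚ) (α β k s : ℤ)
    (hP : ∀ i ≤ n, P.coeff i =
      termsEval (T.getD i []) ((16 * α : ℤ) : ℚ) ((8 * β : ℤ) : ℚ)) :
    homEval n P ((8 * k : ℤ) : ℚ) (s : ℚ) = (pencilValue n T α β k s : ℚ) := by
  rw [homEval, pencilValue, Int.cast_sum]
  refine Finset.sum_congr rfl fun i hi => ?_
  rw [hP i (Nat.lt_succ_iff.1 (Finset.mem_range.1 hi))]
  simp only [← eq_intCast (Int.castRingHom ℚ), map_mul, map_pow, map_termsEval]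

/-- Modulo `2 ^ N` only the kept terms of the last coefficient survive. -/
theorem dvd_pencilValue_sub (n N : ℕ) (T : List (List PencilTerm)) (α β k s : ℤ)
    (h : ((List.range n).all fun i => (termsKeep N (n - i) (T.getD i [])).isEmpty) = true) :
    (2 : ℤ) ^ N ∣ pencilValue n T α β k s -
      termsEval (termsKeep N 0 (T.getD n [])) (16 * α) (8 * β) * s ^ n := by
  rw [List.all_eq_true] at h
  rw [pencilValue, Finset.sum_range_succ, add_sub_assoc, Nat.sub_self, pow_zero, mul_one,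
    ← sub_mul]
  refine dvd_add (Finset.dvd_sum fun i hi => ?_) ?_
  · have hk := dvd_termsEval_sub N (n - i) (T.getD i []) α β k
    rw [List.isEmpty_iff.1 (h i (List.mem_range.2 (Finset.mem_range.1 hi)))] at hk
    simp only [termsEval, List.map_nil, List.sum_nil, zero_mul, sub_zero] at hk
    rw [mul_right_comm]
    exact hk.mul_right _
  · have hk := dvd_termsEval_sub N 0 (T.getD n []) α β k
    rw [pow_zero, mul_one, mul_one] at hk
    exact hk.mul_right _

/-- The two-adic values of the pencil at `(8 k : s)`, `s` odd, for `16 ∥ c₄`, `c₆ ≡ 8` modulo `32`. -/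
theorem pencil_two_values {C4 C6 : ℤ} (h4 : (16 : ℤ) ∣ C4) (h4' : ¬ (32 : ℤ) ∣ C4)
    (h6 : C6 % 32 = 8) (d : PencilData (C4 : ℚ) (C6 : ℚ)) (k s : ℤ) (hs : Odd s) :
    ∃ t A B E : ℤ, t % 4 = 1 ∧
      (t : ℚ) * homEval 20 d.P4 ((8 * k : ℤ) : ℚ) (s : ℚ) = 2 ^ 40 * (A : ℚ) ∧ Odd A ∧
      (t : ℚ) * homEval 30 d.P6 ((8 * k : ℤ) : ℚ) (s : ℚ) = 2 ^ 60 * (B : ℚ) ∧ B % 4 = 3 ∧
      (t : ℚ) * homEval 12 d.PD ((8 * k : ℤ) : ℚ) (s : ℚ) = 2 ^ 25 * (E : ℚ) := by
  obtain ⟨α, rfl⟩ := h4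
  have hα : Odd α := by
    rw [← Int.not_even_iff_odd]
    rintro ⟨r, rfl⟩
    exact h4' ⟨r, by ring⟩
  obtain ⟨β, rfl⟩ : ∃ β, C6 = 8 * β := ⟨C6 / 8, by omega⟩
  have hβ : β % 4 = 1 := by omega
  have hβ' : Odd β := Int.odd_iff.2 (by omega)
  obtain ⟨a, ha⟩ := dvd_pencilValue_sub 20 41 pencilTab4 α β k s (by decide +kernel)
  obtain ⟨b, hb⟩ := dvd_pencilValue_sub 30 62 pencilTab6 α β k s (by decide +kernel)
  obtain ⟨e, he⟩ := dvd_pencilValue_sub 12 25 pencilTabD α β k s (by decide +kernel)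
  rw [show termsKeep 41 0 (pencilTab4.getD 20 []) = [(8, 2, -549301500)] by decide +kernel] at ha
  rw [show termsKeep 62 0 (pencilTab6.getD 30 []) = [(12, 3, 19796866155000)] by decide +kernel] at hb
  rw [show termsKeep 25 0 (pencilTabD.getD 12 []) = [(0, 4, 102400), (6, 0, 91125)] by
    decide +kernel] at he
  simp only [termsEval, List.map_cons, List.map_nil, List.sum_cons, List.sum_nil, add_zero,
    Int.cast_id, pow_zero, mul_one] at ha hb he
  obtain ⟨e', he'⟩ : Even ((25 : ℤ) * β ^ 4 + 91125 * α ^ 6) :=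
    (Odd.mul (by decide) hβ'.pow).add_odd (Odd.mul (by decide) hα.pow)
  refine ⟨1, (-137325375) * α ^ 8 * β ^ 2 * s ^ 20 + 2 * a, 2474608269375 * α ^ 12 * β ^ 3 * s ^ 30 + 4 * b,
    e' * s ^ 12 + e, by norm_num, ?_, ?_, ?_, ?_, ?_⟩
  · rw [Int.cast_one, one_mul,
      cast_pencilValue 20 pencilTab4 d.P4 α β k s fun i hi => coeff_P4 d hi]
    have h : pencilValue 20 pencilTab4 α β k s =
        2 ^ 40 * ((-137325375) * α ^ 8 * β ^ 2 * s ^ 20 + 2 * a) := by
      linear_combination ha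
    rw [h]
    push_cast
    rfl
  · exact ((((show Odd ((-137325375) : ℤ) by decide).mul hα.pow).mul hβ'.pow).mul hs.pow).add_even
      (even_two_mul a)
  · rw [Int.cast_one, one_mul,
      cast_pencilValue 30 pencilTab6 d.P6 α β k s fun i hi => coeff_P6 d hi]
    have h : pencilValue 30 pencilTab6 α β k s =
        2 ^ 60 * (2474608269375 * α ^ 12 * β ^ 3 * s ^ 30 + 4 * b) := by
      linear_combination hb
    rw [h]
    push_cast
    rfl
  · obtain ⟨x, rfl⟩ := hα
    obtain ⟨y, rfl⟩ : ∃ y, β = 4 * y + 1 := ⟨β / 4, by omega⟩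
    obtain ⟨z, rfl⟩ := hs
    have key : ((2474608269375 : ℤ) : ZMod 4) * (((2 * x + 1 : ℤ) : ZMod 4)) ^ 12 *
        (((4 * y + 1 : ℤ) : ZMod 4)) ^ 3 * (((2 * z + 1 : ℤ) : ZMod 4)) ^ 30 + 4 * (b : ZMod 4) =
        3 := by
      push_cast
      generalize (x : ZMod 4) = x', (y : ZMod 4) = y', (z : ZMod 4) = z', (b : ZMod 4) = b'
      revert x' y' z' b'
      decide +kernel
    have key' : (((2474608269375 * (2 * x + 1) ^ 12 * (4 * y + 1) ^ 3 * (2 * z + 1) ^ 30 + 4 * b : ℤ)) :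
        ZMod 4) = ((3 : ℤ) : ZMod 4) := by
      push_cast at key ⊢
      exact key
    rw [ZMod.intCast_eq_intCast_iff'] at key'
    exact key'.trans (by norm_num)
  · rw [Int.cast_one, one_mul,
      cast_pencilValue 12 pencilTabD d.PD α β k s fun i hi => coeff_PD d hi]
    have h : pencilValue 12 pencilTabD α β k s = 2 ^ 25 * (e' * s ^ 12 + e) := by
      linear_combination he + 2 ^ 24 * s ^ 12 * he'
    rw [h]
    push_cast
    rfl

end Fermat.Agent.General
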