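import Fermat.Agent.General.InertiaFive
import Fermat.Agent.Residual.FamilyPrimeRoot
import Fermat.Agent.Residual.LocalForms

/-! A prime inert in the field of `√5` modulo which `c₄` vanishes somewhere on the Hesse pencil:
inertia at `5` fixes a root of the quartic of the pencil and moves `√5`; a Frobenius element in the
same class gives the prime, and a root `w` of the quartic gives the root
`-(A w² + 4 B w + 3 A²) / (w (w² - A))` of the first form. -/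

set_option autoImplicit false
set_option linter.style.haveILetI false

open WeierstrassCurve WeierstrassCurve.Affine Fermat.Agent.Residual Fermat.Agent.Switch

namespace Fermat.Agent.General

local notation "Qbar" => AlgebraicClosure ℚ

/-- A root of the quartic of the pencil gives a root of the first form. -/
theorem hesseC4_root_of_hesseD {K : Type*} [Field K] {A B w : K} (hD : hesseD A B w 1 = 0)
    (hden : w * (w ^ 2 - A) ≠ 0) :
    hesseC4 A B (-(A * w ^ 2 + 4 * B * w + 3 * A ^ 2) / (w * (w ^ 2 - A))) 1 = 0 := by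
  have hnum : hesseC4 A B (-(A * w ^ 2 + 4 * B * w + 3 * A ^ 2)) (w * (w ^ 2 - A)) = 0 := by
    simp only [hesseD, hesseC4] at hD ⊢
    linear_combination ((-3 : K) * w ^ 8 * A ^ 3 + (4 : K) * w ^ 8 * B ^ 2 +
      (-4 : K) * w ^ 7 * A ^ 2 * B + (-8 : K) * w ^ 6 * A * B ^ 2 +
      (-4 : K) * w ^ 5 * A ^ 3 * B + (32 : K) * w ^ 5 * B ^ 3 + (-2 : K) * w ^ 4 * A ^ 5 +
      (52 : K) * w ^ 4 * A ^ 2 * B ^ 2 + (20 : K) * w ^ 3 * A ^ 4 * B +
      (-64 : K) * w ^ 3 * A * B ^ 3 + (-144 : K) * w ^ 2 * A ^ 3 * B ^ 2 +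
      (-108 : K) * w * A ^ 5 * B + (-27 : K) * A ^ 7) * hD
  have h := hesseC4_smul A B (w * (w ^ 2 - A))
    (-(A * w ^ 2 + 4 * B * w + 3 * A ^ 2) / (w * (w ^ 2 - A))) 1
  rw [mul_div_cancel₀ _ hden, mul_one, hnum] at h
  exact (mul_eq_zero.1 h.symm).resolve_left (pow_ne_zero 4 hden)

theorem den_ne_zero {K : Type*} [Field K] {A B w : K} (h2 : (2 : K) ≠ 0) (h3 : (3 : K) ≠ 0)
    (hA : A ≠ 0) (hAB : A ^ 3 - B ^ 2 ≠ 0) (hD : hesseD A B w 1 = 0) :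
    w * (w ^ 2 - A) ≠ 0 := by
  intro h
  have h8 : (8 : K) ≠ 0 := by
    rw [show (8 : K) = 2 ^ 3 by norm_num]; exact pow_ne_zero 3 h2
  simp only [hesseD] at hD
  rcases mul_eq_zero.1 h with hw | hw
  · subst hw
    exact mul_ne_zero h3 (pow_ne_zero 2 hA) (by linear_combination -hD)
  · have h1 : A ^ 2 + B * w = 0 :=
      (mul_eq_zero.1 (show (8 : K) * (A ^ 2 + B * w) = 0 by
        linear_combination -hD + (w ^ 2 - 5 * A) * hw)).resolve_left h8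
    exact hAB ((mul_eq_zero.1 (show A * (A ^ 3 - B ^ 2) = 0 by
      linear_combination (A ^ 2 - B * w) * h1 + B ^ 2 * hw)).resolve_left hA)

theorem c₄_ne_zero_of_semistable (W : WeierstrassCurve ℤ) (hs : W.IsSemistableModel) :
    W.c₄ ≠ 0 := by
  intro h
  have hunit : W.Δ.natAbs = 1 := by
    by_contra hne
    obtain ⟨p, hp, hd⟩ := Nat.exists_prime_and_dvd hne
    exact hs p hp (Int.natCast_dvd.2 hd) (h ▸ dvd_zero _)
  have hrel := W.c_relation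
  rw [h] at hrel
  rcases Int.natAbs_eq W.Δ with hd | hd <;> rw [hunit, Nat.cast_one] at hd <;> rw [hd] at hrel
  · nlinarith [sq_nonneg W.c₆]
  · have hb : W.c₆.natAbs * W.c₆.natAbs = 1728 := by
      zify
      rw [← sq, sq_abs]
      linarith
    rcases le_or_gt W.c₆.natAbs 41 with h41 | h41
    · have := Nat.mul_le_mul h41 h41
      omega
    · have := Nat.mul_le_mul (Nat.succ_le_of_lt h41) (Nat.succ_le_of_lt h41)
      omega

/-- A prime inert in `ℚ (√5)` modulo which the quartic of the pencil has a root. -/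
theorem exists_prime_five_dvd_hesseD (W : WeierstrassCurve ℤ) (hΔ : W.Δ ≠ 0)
    (hs : W.IsSemistableModel) :
    ∃ (ℓ : ℕ) (z : ℤ), ℓ.Prime ∧ ¬ (ℓ : ℤ) ∣ 30 * W.Δ * W.c₄ ∧ (ℓ % 5 = 2 ∨ ℓ % 5 = 3) ∧
      (ℓ : ℤ) ∣ hesseD W.c₄ W.c₆ z 1 := by
  have hc₄ := c₄_ne_zero_of_semistable W hs
  obtain ⟨σ, w, t, ht, hσt, hσw, hw⟩ := exists_root_fixed_sqrt_five_moved W hΔ hs
  have htint : IsIntegral ℤ t := by
    refine IsIntegral.of_pow two_pos ?_
    rw [ht, show (5 : Qbar) = algebraMap ℤ Qbar 5 by simp]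
    exact isIntegral_algebraMap
  have hwint : IsIntegral ℤ w := by
    refine ⟨Polynomial.X ^ 4 + Polynomial.C (-6 * W.c₄) * Polynomial.X ^ 2 +
      Polynomial.C (-8 * W.c₆) * Polynomial.X + Polynomial.C (-3 * W.c₄ ^ 2), by monicity!, ?_⟩
    simp only [Polynomial.eval₂_add, Polynomial.eval₂_mul, Polynomial.eval₂_pow,
      Polynomial.eval₂_X, Polynomial.eval₂_C]
    rw [← hw]
    simp [hesseD]
    ring
  haveI : Algebra.IsAlgebraic ℚ Qbar := AlgebraicClosure.isAlgebraic ℚ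
  let L : IntermediateField ℚ Qbar := IntermediateField.adjoin ℚ {w, t}
  haveI : FiniteDimensional ℚ L :=
    IntermediateField.finiteDimensional_adjoin fun x _ => Algebra.IsIntegral.isIntegral x
  obtain ⟨ℓ, hℓ, hℓS, A, hA, τ, hτ, ⟨k, hk⟩, ⟨k', hk'⟩⟩ :=
    Density.exists_frobenius_pow σ L (30 * W.Δ * W.c₄).natAbs.primeFactors
  have hwL : w ∈ L := IntermediateField.subset_adjoin _ _ (by simp)
  have htL : t ∈ L := IntermediateField.subset_adjoin _ _ (by simp)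
  have h30 : ¬ (ℓ : ℤ) ∣ 30 * W.Δ * W.c₄ := fun h => hℓS (Nat.mem_primeFactors.2
    ⟨hℓ, Int.natCast_dvd.1 h,
      Int.natAbs_ne_zero.2 (mul_ne_zero (mul_ne_zero (by norm_num) hΔ) hc₄)⟩)
  have hℓ2 : ℓ ≠ 2 := fun h => h30 (h ▸ dvd_mul_of_dvd_left (dvd_mul_of_dvd_left (by norm_num) _) _)
  have hℓ5 : ℓ ≠ 5 := fun h => h30 (h ▸ dvd_mul_of_dvd_left (dvd_mul_of_dvd_left (by norm_num) _) _)
  have hτw : τ w = w := by
    rw [hk' w hwL]
    clear hk'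
    induction k' with
    | zero => simp
    | succ j ih => rw [pow_succ, AlgEquiv.mul_apply, hσw, ih]
  have hτt : τ t = -t := by
    have hsq : τ t ^ 2 = t ^ 2 := by rw [← map_pow, ht, map_ofNat]
    refine (sq_eq_sq_iff_eq_or_eq_neg.1 hsq).resolve_left fun h => hσt ?_
    rw [hk t htL]
    clear hk
    induction k with
    | zero => simp
    | succ j ih => rw [pow_succ, AlgEquiv.mul_apply, h, ih]
  -- pass to the residue field
  haveI := ECRed.charP_residueField (A := A) hℓ hA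
  haveI := Fact.mk hℓ
  have hfrob : ∀ (x : Qbar) (hx : x ∈ A) (y : Qbar) (hy : y ∈ A), τ x = y →
      IsLocalRing.residue A ⟨x, hx⟩ ^ ℓ = IsLocalRing.residue A ⟨y, hy⟩ := by
    intro x hx y hy hxy
    rw [eq_comm, ← map_pow, ← sub_eq_zero, ← map_sub, IsLocalRing.residue_eq_zero_iff,
      ← A.coe_mem_nonunits_iff]
    have := Density.sub_pow_mem_nonunits hτ hx
    rw [hxy] at this
    exact this
  have hwA := Galois.mem_valuationSubring_of_isIntegral A hwint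
  have htA := Galois.mem_valuationSubring_of_isIntegral A htint
  obtain ⟨r, hr⟩ : ∃ r : ℤ, (r : IsLocalRing.ResidueField A) = IsLocalRing.residue A ⟨w, hwA⟩ := by
    have h := (Subfield.mem_bot_iff_pow_eq_self _ ℓ).2 (hfrob w hwA w hwA hτw)
    rw [← ZMod.fieldRange_castHom_eq_bot ℓ] at h
    obtain ⟨z, hz⟩ := h
    obtain ⟨r, rfl⟩ := ZMod.intCast_surjective z
    exact ⟨r, by rw [← hz, map_intCast]⟩
  refine ⟨ℓ, r, hℓ, h30, ?_, ?_⟩
  · have hodd : ℓ % 2 = 1 := (hℓ.eq_two_or_odd).resolve_left hℓ2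
    haveI : Fact (Nat.Prime 5) := ⟨by decide⟩
    suffices hns : ¬ IsSquare ((5 : ℕ) : ZMod ℓ) by
      rw [← ZMod.exists_sq_eq_prime_iff_of_mod_four_eq_one (p := 5) (q := ℓ) (by decide) hℓ2] at hns
      have h0 : ℓ % 5 ≠ 0 := fun h => hℓ5
        ((Nat.prime_dvd_prime_iff_eq (by decide) hℓ).1 (Nat.dvd_of_mod_eq_zero h)).symm
      have hlt : ℓ % 5 < 5 := Nat.mod_lt _ (by norm_num)
      have h1 : ℓ % 5 ≠ 1 := fun h => hns ⟨1, by rw [← ZMod.natCast_mod ℓ 5, h]; rfl⟩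
      have h4 : ℓ % 5 ≠ 4 := fun h => hns ⟨2, by rw [← ZMod.natCast_mod ℓ 5, h]; rfl⟩
      omega
    rintro ⟨c, hc⟩
    rw [Nat.cast_ofNat] at hc
    obtain ⟨T, hT⟩ : ∃ T, T = IsLocalRing.residue A ⟨t, htA⟩ := ⟨_, rfl⟩
    have hT2 : T ^ 2 = 5 := by
      rw [hT, ← map_pow, show (⟨t, htA⟩ : A) ^ 2 = 5 from Subtype.ext (by push_cast; exact ht),
        map_ofNat]
    have hTneg : T ^ ℓ = -T := by
      rw [hT, hfrob t htA (-t) (neg_mem htA) hτt, ← map_neg]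
      rfl
    let φ := ZMod.castHom (m := ℓ) dvd_rfl (IsLocalRing.ResidueField A)
    have hc' : φ c ^ 2 = T ^ 2 := by rw [hT2, sq, ← map_mul, ← hc, map_ofNat]
    have hfix : T ^ ℓ = T := by
      have hcℓ : φ c ^ ℓ = φ c := by rw [← map_pow, ZMod.pow_card]
      rcases sq_eq_sq_iff_eq_or_eq_neg.1 hc' with h | h
      · rw [← h, hcℓ]
      · rw [← neg_eq_iff_eq_neg.2 h, Odd.neg_pow (Nat.odd_iff.2 hodd), hcℓ]
    have hT0 : (2 : IsLocalRing.ResidueField A) * T = 0 := by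
      linear_combination hfix.symm.trans hTneg
    have hne : ∀ {n : ℕ}, n.Prime → ℓ ≠ n → (n : IsLocalRing.ResidueField A) ≠ 0 := fun hn h h0 =>
      h ((Nat.prime_dvd_prime_iff_eq hℓ hn).1 ((CharP.cast_eq_zero_iff _ ℓ _).1 h0))
    rcases mul_eq_zero.1 hT0 with h | h
    · exact hne Nat.prime_two hℓ2 (by exact_mod_cast h)
    · rw [h] at hT2
      exact hne (n := 5) (by decide) hℓ5 (by simpa using hT2.symm)
  · rw [← CharP.intCast_eq_zero_iff (IsLocalRing.ResidueField A) ℓ,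
      ← eq_intCast (Int.castRingHom (IsLocalRing.ResidueField A)), map_hesseD]
    simp only [eq_intCast, hr, map_one]
    rw [← map_intCast (IsLocalRing.residue A) W.c₄, ← map_intCast (IsLocalRing.residue A) W.c₆,
      ← map_one (IsLocalRing.residue A), ← map_hesseD]
    convert map_zero (IsLocalRing.residue A)
    apply Subtype.ext
    have := map_hesseD A.subtype ((W.c₄ : ℤ) : A) ((W.c₆ : ℤ) : A) ⟨w, hwA⟩ 1
    simp only [map_intCast, map_one] at this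
    exact this.trans hw

/-- Some prime inert in `ℚ (√5)`, prime to `30 Δ`, divides a value of `c₄` on the Hesse pencil. -/
theorem exists_prime_dvd_hesseC4 (W : WeierstrassCurve ℤ) (hΔ : W.Δ ≠ 0)
    (hs : W.IsSemistableModel) :
    ∃ (ℓ : ℕ) (r : ℤ), ℓ.Prime ∧ ¬ (ℓ : ℤ) ∣ 30 * W.Δ ∧ (ℓ % 5 = 2 ∨ ℓ % 5 = 3) ∧
      (ℓ : ℤ) ∣ hesseC4 W.c₄ W.c₆ r 1 := by
  obtain ⟨ℓ, z, hℓ, h30, h5, hD⟩ := exists_prime_five_dvd_hesseD W hΔ hs
  haveI := Fact.mk hℓ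
  have hne : ∀ d : ℤ, d ∣ 30 * W.Δ * W.c₄ → ((d : ℤ) : ZMod ℓ) ≠ 0 := fun d hd h =>
    h30 (((ZMod.intCast_zmod_eq_zero_iff_dvd d ℓ).1 h).trans hd)
  have h2 : (2 : ZMod ℓ) ≠ 0 := by exact_mod_cast hne 2 (Dvd.intro (15 * W.Δ * W.c₄) (by ring))
  have h3 : (3 : ZMod ℓ) ≠ 0 := by exact_mod_cast hne 3 (Dvd.intro (10 * W.Δ * W.c₄) (by ring))
  have hA : (W.c₄ : ZMod ℓ) ≠ 0 := hne _ (Dvd.intro_left _ rfl)
  have hAB : (W.c₄ : ZMod ℓ) ^ 3 - (W.c₆ : ZMod ℓ) ^ 2 ≠ 0 := by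
    have h : ((W.c₄ ^ 3 - W.c₆ ^ 2 : ℤ) : ZMod ℓ) = ((1728 * W.Δ : ℤ) : ZMod ℓ) := by
      rw [W.c_relation]
    push_cast at h
    rw [h, show (1728 : ZMod ℓ) = 2 ^ 6 * 3 ^ 3 by norm_num]
    exact mul_ne_zero (mul_ne_zero (pow_ne_zero 6 h2) (pow_ne_zero 3 h3))
      (hne _ (Dvd.intro (30 * W.c₄) (by ring)))
  have hD' : hesseD (W.c₄ : ZMod ℓ) (W.c₆ : ZMod ℓ) (z : ZMod ℓ) 1 = 0 := by
    rw [← (ZMod.intCast_zmod_eq_zero_iff_dvd _ ℓ).2 hD,
      show ((hesseD W.c₄ W.c₆ z 1 : ℤ) : ZMod ℓ) =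
        Int.castRingHom (ZMod ℓ) (hesseD W.c₄ W.c₆ z 1) from rfl, map_hesseD]
    simp
  obtain ⟨r, hr⟩ := ZMod.intCast_surjective (n := ℓ)
    (-((W.c₄ : ZMod ℓ) * (z : ZMod ℓ) ^ 2 + 4 * (W.c₆ : ZMod ℓ) * z + 3 * (W.c₄ : ZMod ℓ) ^ 2) /
      ((z : ZMod ℓ) * ((z : ZMod ℓ) ^ 2 - (W.c₄ : ZMod ℓ))))
  refine ⟨ℓ, r, hℓ, fun h => h30 (h.mul_right _), h5, ?_⟩
  rw [← ZMod.intCast_zmod_eq_zero_iff_dvd,
    show ((hesseC4 W.c₄ W.c₆ r 1 : ℤ) : ZMod ℓ) =
      Int.castRingHom (ZMod ℓ) (hesseC4 W.c₄ W.c₆ r 1) from rfl, map_hesseC4]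
  simp only [eq_intCast, Int.cast_one, hr]
  exact hesseC4_root_of_hesseD hD' (den_ne_zero h2 h3 hA hAB hD')

end Fermat.Agent.General
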