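import Fermat.Agent.General.TwoAdic
import Fermat.Agent.General.PrimeRootFive
import Fermat.Agent.Residual.Local
import Fermat.Agent.Residual.FamilyCongruence
import Fermat.Prelude.Def_FLTPrelim_Modularity

/-! The member of the Hesse pencil used for curves which are good at two. -/

set_option autoImplicit false

open WeierstrassCurve Fermat.Agent.Residual

namespace Fermat.Agent.General

/-- The invariants of the member at `(12 x + b₂ m : m)`, scaled by `12`, are integral and congruent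
to those of `W` modulo `729` when `m` is divisible by a high power of `3`. -/
theorem exists_scaled_invariants (W : WeierstrassCurve ℤ) {x m C G : ℤ}
    (hx : (3 : ℤ) ^ 12 ∣ x - 1) (hm : (3 : ℤ) ^ 12 ∣ m)
    (hC : hesseC4 W.c₄ W.c₆ (12 * x + W.b₂ * m) m = 256 * C)
    (hG : hesseC6 W.c₄ W.c₆ (12 * x + W.b₂ * m) m = 4096 * G) :
    ∃ c4 c6 : ℤ, C = 81 * c4 ∧ G = 729 * c6 ∧
      (729 : ℤ) ∣ c4 - W.c₄ ∧ (729 : ℤ) ∣ c6 - W.c₆ := by
  have hl : ((3 ^ 12 : ℕ) : ℤ) ∣ (12 * x + W.b₂ * m) - 12 := by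
    push_cast
    rw [show 12 * x + W.b₂ * m - 12 = 12 * (x - 1) + W.b₂ * m by ring]
    exact dvd_add (dvd_mul_of_dvd_right hx _) (dvd_mul_of_dvd_right hm _)
  have hm0 : ((3 ^ 12 : ℕ) : ℤ) ∣ m - 0 := by push_cast; simpa using hm
  obtain ⟨e4, e6, -⟩ := hesse_one_zero W.c₄ W.c₆
  have s4 := hesseC4_smul W.c₄ W.c₆ 12 1 0
  have s6 := hesseC6_smul W.c₄ W.c₆ 12 1 0
  rw [mul_one, mul_zero, e4] at s4
  rw [mul_one, mul_zero, e6] at s6
  obtain ⟨i, hi⟩ := hesseC4_congr (A := W.c₄) (B := W.c₆) hl hm0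
  obtain ⟨j, hj⟩ := hesseC6_congr (A := W.c₄) (B := W.c₆) hl hm0
  rw [hC, s4] at hi
  rw [hG, s6] at hj
  norm_num at hi hj
  -- `256 (C - 81 c₄) = 3 ^ 12 i` and `4096 (G - 729 c₆) = 3 ^ 12 j`
  obtain ⟨i', rfl⟩ : (256 : ℤ) ∣ i :=
    (show IsCoprime (256 : ℤ) 531441 from Int.isCoprime_iff_gcd_eq_one.2 (by norm_num)).dvd_of_dvd_mul_left
      ⟨C - 81 * W.c₄, by linear_combination -hi⟩
  obtain ⟨j', rfl⟩ : (4096 : ℤ) ∣ j :=
    (show IsCoprime (4096 : ℤ) 531441 from Int.isCoprime_iff_gcd_eq_one.2 (by norm_num)).dvd_of_dvd_mul_left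
      ⟨G - 729 * W.c₆, by linear_combination -hj⟩
  refine ⟨W.c₄ + 6561 * i', W.c₆ + 729 * j', ?_, ?_, ⟨9 * i', by ring⟩, ⟨j', by ring⟩⟩
  · refine mul_left_cancel₀ (show (256 : ℤ) ≠ 0 by norm_num) ?_
    linear_combination hi
  · refine mul_left_cancel₀ (show (4096 : ℤ) ≠ 0 by norm_num) ?_
    linear_combination hj

/-- The curve attached to a parameter congruent to `(1 : 0)` modulo `3 Δ`, with the local data at
two. -/
theorem exists_member (W : WeierstrassCurve ℤ) (hΔ : W.Δ ≠ 0) (hW : W.IsSemistableModel)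
    (h2 : ¬ (2 : ℤ) ∣ W.Δ) (h3 : W.ModRepIsIrreducible 3) {x m : ℤ} (hxm : Odd x ∨ Odd m)
    (hcop : IsCoprime x m) (hx : 3 ^ 12 * W.Δ ∣ x - 1) (hm : 3 ^ 12 * W.Δ ∣ m) :
    ∃ W' : WeierstrassCurve ℤ, W'.Δ ≠ 0 ∧ W'.IsSemistableModel ∧ W'.ModRepIsIrreducible 3 ∧
      (¬ (3 : ℤ) ∣ W.Δ → ¬ (3 : ℤ) ∣ W'.Δ) ∧
      (∀ ℓ : ℕ, ℓ.Prime → W.IsGoodPrimeFor ℓ → W'.IsGoodPrimeFor ℓ → ℓ ≠ 3 →
        (3 : ℤ) ∣ W'.apOfModel ℓ - W.apOfModel ℓ) ∧
      W'.c₄ * 12 ^ 4 = hesseC4 W.c₄ W.c₆ (12 * x + W.b₂ * m) m ∧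
      27 * W'.Δ = W.Δ * psiHom W x m ^ 3 := by
  have hx3 : (3 : ℤ) ^ 12 ∣ x - 1 := (dvd_mul_right _ _).trans hx
  have hm3 : (3 : ℤ) ^ 12 ∣ m := (dvd_mul_right _ _).trans hm
  set l := 12 * x + W.b₂ * m with hl
  obtain ⟨C, G, hC, hG, h2case⟩ := hesse_two_cases W h2 hxm
  obtain ⟨c4, c6, hC4, hG6, k4, k6⟩ := exists_scaled_invariants W hx3 hm3 hC hG
  have e4 : c4 * 12 ^ 4 = hesseC4 W.c₄ W.c₆ l m := by rw [hC, hC4]; ring
  have e6 : c6 * 12 ^ 6 = hesseC6 W.c₄ W.c₆ l m := by rw [hG, hG6]; ring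
  have hdisc : c4 ^ 3 - c6 ^ 2 = 64 * (W.Δ * psiHom W x m ^ 3) := by
    have h := hesse_disc W.c₄ W.c₆ l m
    rw [← e4, ← e6, hl, hesseD_psiHom, c₄_cube_sub_c₆_sq] at h
    refine mul_left_cancel₀ (show (12 : ℤ) ^ 12 ≠ 0 by norm_num) ?_
    linear_combination h
  obtain ⟨W₂, h24, h26⟩ : ∃ W₂ : WeierstrassCurve ℤ,
      (4096 : ℤ) ∣ c4 - W₂.c₄ ∧ (4096 : ℤ) ∣ c6 - W₂.c₆ := by
    rcases h2case with ⟨hodd, hG4⟩ | ⟨h16, hG32⟩
    · refine exists_local_model_two ?_ (by omega) ⟨W.Δ * psiHom W x m ^ 3, by linear_combination hdisc⟩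
      rw [hC4] at hodd
      exact (Int.odd_mul.1 hodd).2
    · exact exists_local_model_two_supersingular (by omega) (by omega)
  obtain ⟨W', hW4, hW6⟩ := exists_model_of_local W₂ W h24 h26 k4 k6
  have hΔ' : 27 * W'.Δ = W.Δ * psiHom W x m ^ 3 := by
    have h := c₄_cube_sub_c₆_sq W'
    rw [hW4, hW6, hdisc] at h
    linarith
  have hψ : psiHom W x m ≠ 0 := by
    intro h0
    have h9m : (9 : ℤ) ∣ m := (show (9 : ℤ) ∣ 3 ^ 12 by norm_num).trans hm3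
    have h9x : (9 : ℤ) ∣ x - 1 := (show (9 : ℤ) ∣ 3 ^ 12 by norm_num).trans hx3
    obtain ⟨i, hi⟩ := h9m
    obtain ⟨j, hj⟩ := h9x
    have hx' : x = 1 + 9 * j := by linear_combination hj
    have h9 : (9 : ℤ) ∣ 3 := ⟨-(3 * (4 * j + 54 * j ^ 2 + 324 * j ^ 3 + 729 * j ^ 4)
      + W.b₂ * x ^ 3 * i + 3 * W.b₄ * x ^ 2 * i * m + 3 * W.b₆ * x * i * m ^ 2
      + W.b₈ * i * m ^ 3), by
      have e : 3 * x ^ 4 = 3 + 27 * (4 * j + 54 * j ^ 2 + 324 * j ^ 3 + 729 * j ^ 4) := by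
        rw [hx']; ring
      rw [psiHom] at h0
      linear_combination h0 - e - (W.b₂ * x ^ 3 + 3 * W.b₄ * x ^ 2 * m + 3 * W.b₆ * x * m ^ 2
        + W.b₈ * m ^ 3) * hi⟩
    norm_num at h9
  have hW'0 : W'.Δ ≠ 0 := fun h => by
    rw [h, mul_zero] at hΔ'
    exact mul_ne_zero hΔ (pow_ne_zero _ hψ) hΔ'.symm
  have h33 : (27 : ℤ) ∣ W'.Δ - W.Δ := by
    obtain ⟨i, hi⟩ := k4
    obtain ⟨j, hj⟩ := k6
    have e : 1728 * (W'.Δ - W.Δ) = 729 * (i * (W'.c₄ ^ 2 + W'.c₄ * W.c₄ + W.c₄ ^ 2)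
        - j * (W'.c₆ + W.c₆)) := by
      have hW' := c₄_cube_sub_c₆_sq W'
      rw [hW4, hW6] at hW' ⊢
      linear_combination -hW' + c₄_cube_sub_c₆_sq W
        + (c4 ^ 2 + c4 * W.c₄ + W.c₄ ^ 2) * hi - (c6 + W.c₆) * hj
    refine (show IsCoprime (27 : ℤ) 64 from
      Int.isCoprime_iff_gcd_eq_one.2 (by norm_num)).dvd_of_dvd_mul_left
      ⟨i * (W'.c₄ ^ 2 + W'.c₄ * W.c₄ + W.c₄ ^ 2) - j * (W'.c₆ + W.c₆), ?_⟩
    refine mul_left_cancel₀ (show (27 : ℤ) ≠ 0 by norm_num) ?_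
    linear_combination e
  have hss : W'.IsSemistableModel := by
    intro q hq hqΔ hq4
    rw [hW4] at hq4
    have hp : Prime (q : ℤ) := Nat.prime_iff_prime_int.1 hq
    have := Fact.mk hq
    by_cases hq2 : q = 2
    · subst hq2
      rcases h2case with ⟨hodd, -⟩ | ⟨h16, hG32⟩
      · rw [hC4] at hodd
        exact (Int.not_even_iff_odd.2 (Int.odd_mul.1 hodd).2) (even_iff_two_dvd.2 hq4)
      · obtain ⟨i, hi⟩ : (16 : ℤ) ∣ c4 := by omega
        obtain ⟨j, hj⟩ : ∃ j, c6 = 8 + 32 * j := ⟨(c6 - 8) / 32, by omega⟩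
        have e : 27 * W'.Δ = 64 * i ^ 3 - (1 + 4 * j) ^ 2 := by
          refine mul_left_cancel₀ (show (64 : ℤ) ≠ 0 by norm_num) ?_
          rw [hΔ', ← hdisc, hi, hj]; ring
        have h1 : (2 : ℤ) ∣ 1 := by
          obtain ⟨k, hk⟩ := hqΔ
          exact ⟨32 * i ^ 3 - 27 * k - 4 * j - 8 * j ^ 2, by
            rw [hk] at e
            push_cast at e
            linear_combination e⟩
        norm_num at h1
    by_cases hq3 : q = 3
    · subst hq3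
      have hd : (3 : ℤ) ∣ W.Δ := by
        have := dvd_sub hqΔ ((show (3 : ℤ) ∣ 27 by norm_num).trans h33)
        simpa using this
      refine hW 3 hq hd ?_
      have := dvd_sub hq4 ((show (3 : ℤ) ∣ 729 by norm_num).trans k4)
      simpa using this
    have h23 : ¬ (q : ℤ) ∣ 2 ∧ ¬ (q : ℤ) ∣ 3 :=
      ⟨fun h => hq2 ((Nat.prime_dvd_prime_iff_eq hq Nat.prime_two).1 (by exact_mod_cast h)),
        fun h => hq3 ((Nat.prime_dvd_prime_iff_eq hq Nat.prime_three).1 (by exact_mod_cast h))⟩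
    have h12 : ¬ (q : ℤ) ∣ 12 := fun h => by
      rw [show (12 : ℤ) = 2 * (2 * 3) by norm_num] at h
      rcases hp.dvd_or_dvd h with h | h
      · exact h23.1 h
      · exact (hp.dvd_or_dvd h).elim h23.1 h23.2
    have hC' : (q : ℤ) ∣ hesseC4 W.c₄ W.c₆ l m := by
      rw [← e4]; exact dvd_mul_of_dvd_left hq4 _
    by_cases hqW : (q : ℤ) ∣ W.Δ
    · -- the parameter is `(1 : 0)` modulo `q`
      have hlq : (q : ℤ) ∣ l - 12 := by
        rw [show l - 12 = 12 * (x - 1) + W.b₂ * m by rw [hl]; ring]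
        exact dvd_add (dvd_mul_of_dvd_right ((dvd_mul_of_dvd_right hqW _).trans hx) _)
          (dvd_mul_of_dvd_right ((dvd_mul_of_dvd_right hqW _).trans hm) _)
      have hmq : (q : ℤ) ∣ m - 0 := by
        simpa using (dvd_mul_of_dvd_right hqW _).trans hm
      have := dvd_sub hC' (hesseC4_congr (A := W.c₄) (B := W.c₆) hlq hmq)
      rw [sub_sub_cancel, show (12 : ℤ) = 12 * 1 by norm_num,
        show (0 : ℤ) = 12 * 0 by norm_num, hesseC4_smul, (hesse_one_zero W.c₄ W.c₆).1] at this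
      exact (hp.dvd_or_dvd this).elim (fun h => h12 (hp.dvd_of_dvd_pow h)) (hW q hq hqW)
    · -- no common zero
      have hψq : (q : ℤ) ∣ psiHom W x m := by
        have : (q : ℤ) ∣ W.Δ * psiHom W x m ^ 3 := hΔ' ▸ dvd_mul_of_dvd_right hqΔ _
        exact hp.dvd_of_dvd_pow ((hp.dvd_or_dvd this).resolve_left hqW)
      have hD : (q : ℤ) ∣ hesseD W.c₄ W.c₆ l m := by
        rw [hl, hesseD_psiHom]; exact dvd_mul_of_dvd_right hψq _
      have hne : ∀ z : ℤ, ¬ (q : ℤ) ∣ z → (z : ZMod q) ≠ 0 := fun z hz h0 =>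
        hz ((ZMod.intCast_zmod_eq_zero_iff_dvd z q).1 h0)
      have hAB : ¬ (q : ℤ) ∣ W.c₄ ^ 3 - W.c₆ ^ 2 := by
        rw [c₄_cube_sub_c₆_sq, show (1728 : ℤ) = 12 ^ 3 by norm_num]
        exact fun h => (hp.dvd_or_dvd h).elim (fun h => h12 (hp.dvd_of_dvd_pow h)) hqW
      obtain ⟨hl0, hm0⟩ := hesse_no_common_zero (K := ZMod q) (A := (W.c₄ : ZMod q))
        (B := (W.c₆ : ZMod q)) (l := (l : ZMod q)) (m := (m : ZMod q))
        (by exact_mod_cast hne 2 h23.1) (by exact_mod_cast hne 3 h23.2)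
        (by exact_mod_cast hne _ hAB)
        (by
          simp only [← eq_intCast (Int.castRingHom (ZMod q))]
          rw [← map_hesseD, eq_intCast]
          exact (ZMod.intCast_zmod_eq_zero_iff_dvd _ q).2 hD)
        (by
          simp only [← eq_intCast (Int.castRingHom (ZMod q))]
          rw [← map_hesseC4, eq_intCast]
          exact (ZMod.intCast_zmod_eq_zero_iff_dvd _ q).2 hC')
      rw [ZMod.intCast_zmod_eq_zero_iff_dvd] at hl0 hm0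
      have hqx : (q : ℤ) ∣ x := by
        refine (hp.dvd_or_dvd (?_ : (q : ℤ) ∣ 12 * x)).resolve_left h12
        have := dvd_sub hl0 (dvd_mul_of_dvd_right hm0 W.b₂)
        rwa [hl, add_sub_cancel_right] at this
      exact hp.not_isUnit (hcop.isUnit_of_dvd' hqx hm0)
  have hl0 : l ≠ 0 := by
    intro h0
    obtain ⟨i, hi⟩ := (show (9 : ℤ) ∣ 3 ^ 12 by norm_num).trans hm3
    obtain ⟨j, hj⟩ := (show (9 : ℤ) ∣ 3 ^ 12 by norm_num).trans hx3
    have : (9 : ℤ) ∣ 12 := ⟨-(12 * j + W.b₂ * i), by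
      rw [hl] at h0; linear_combination h0 - 12 * hj - W.b₂ * hi⟩
    norm_num at this
  have h4' : W'.c₄ * 12 ^ 4 = hesseC4 W.c₄ W.c₆ l m := by rw [hW4, e4]
  have h6' : W'.c₆ * 12 ^ 6 = hesseC6 W.c₄ W.c₆ l m := by rw [hW6, e6]
  refine ⟨W', hW'0, hss,
    modRepIsIrreducible_three_of_hesse W W' hΔ hW'0 hl0 (by norm_num) h4' h6' h3,
    fun h h' => h ?_,
    fun ℓ hℓ hg hg' hne => dvd_apOfModel_sub_of_hesse W W' hΔ hW'0 hl0 (by norm_num) h4' h6' hℓ hg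
      hg' hne,
    h4', hΔ'⟩
  have := dvd_sub h' ((show (3 : ℤ) ∣ 27 by norm_num).trans h33)
  simpa using this

/-- A member of the Hesse pencil congruent modulo three which is either multiplicative at two or
is supersingular at two with irreducible five-torsion, detected by a prime factor of `c₄`. -/
theorem exists_three_member (W : WeierstrassCurve ℤ) (hΔ : W.Δ ≠ 0) (hW : W.IsSemistableModel)
    (h2 : ¬ (2 : ℤ) ∣ W.Δ) (h3 : W.ModRepIsIrreducible 3) :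
    ∃ W' : WeierstrassCurve ℤ, W'.Δ ≠ 0 ∧ W'.IsSemistableModel ∧ W'.ModRepIsIrreducible 3 ∧
      (¬ (3 : ℤ) ∣ W.Δ → ¬ (3 : ℤ) ∣ W'.Δ) ∧
      (∀ ℓ : ℕ, ℓ.Prime → W.IsGoodPrimeFor ℓ → W'.IsGoodPrimeFor ℓ → ℓ ≠ 3 →
        (3 : ℤ) ∣ W'.apOfModel ℓ - W.apOfModel ℓ) ∧
      ((2 : ℤ) ∣ W'.Δ ∨
        (¬ (2 : ℤ) ∣ W'.Δ ∧ (16 : ℤ) ∣ W'.c₄ ∧ ¬ (32 : ℤ) ∣ W'.c₄ ∧
          ∃ ℓ : ℕ, ℓ.Prime ∧ ℓ ≠ 2 ∧ (ℓ % 5 = 2 ∨ ℓ % 5 = 3) ∧ (ℓ : ℤ) ∣ W'.c₄)) := by
  set M := 3 ^ 12 * W.Δ with hM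
  have hModd : Odd M := Int.odd_mul.2
    ⟨by decide, Int.not_even_iff_odd.1 fun h => h2 (even_iff_two_dvd.1 h)⟩
  by_cases ha : W.apOfModel 2 = 0
  · obtain ⟨W', h0, hss, hirr, h33, hcong, -, hΔ'⟩ :=
      exists_member W hΔ hW h2 h3 (x := 1) (m := M) (Or.inl odd_one) isCoprime_one_left
        (by simp) dvd_rfl
    refine ⟨W', h0, hss, hirr, h33, hcong, Or.inl ?_⟩
    have hev : (2 : ℤ) ∣ 27 * W'.Δ := by
      rw [hΔ']
      exact dvd_mul_of_dvd_right (dvd_pow (even_iff_two_dvd.1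
        (even_psiHom_of_ap_zero W h2 ha hModd)) three_ne_zero) _
    exact (Int.prime_two.dvd_or_dvd hev).resolve_left (by norm_num)
  · obtain ⟨x₀, m₀, h00, hpar⟩ := exists_supersingular_parity W h2 ha
    obtain ⟨ℓ, r, hℓ, h30, h5, hr⟩ := exists_prime_dvd_hesseC4 W hΔ hW
    have hp : Prime (ℓ : ℤ) := Nat.prime_iff_prime_int.1 hℓ
    have hℓ12 : ¬ (ℓ : ℤ) ∣ 12 := fun h => h30 <| by
      rw [show (12 : ℤ) = 2 * (2 * 3) by norm_num] at h
      rcases hp.dvd_or_dvd h with h | h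
      · exact dvd_mul_of_dvd_left (h.trans (by norm_num)) _
      · exact (hp.dvd_or_dvd h).elim (fun h => dvd_mul_of_dvd_left (h.trans (by norm_num)) _)
          fun h => dvd_mul_of_dvd_left (h.trans (by norm_num)) _
    have hℓM : ¬ (ℓ : ℤ) ∣ 2 * M := fun h => by
      rcases hp.dvd_or_dvd h with h | h
      · exact h30 (dvd_mul_of_dvd_left (h.trans (by norm_num)) _)
      · rcases hp.dvd_or_dvd h with h | h
        · exact h30 (dvd_mul_of_dvd_left ((hp.dvd_of_dvd_pow h).trans (by norm_num)) _)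
        · exact h30 (dvd_mul_of_dvd_right h _)
    obtain ⟨m, hMm, hm₀, hm2⟩ : ∃ m, M ∣ m ∧ (2 : ℤ) ∣ m - m₀ ∧
        (m = M ∨ (Odd x₀ ∧ m = 2 * M)) := by
      by_cases hm₀ : Odd m₀
      · exact ⟨M, dvd_rfl, even_iff_two_dvd.1 (hModd.sub_odd hm₀), Or.inl rfl⟩
      · exact ⟨2 * M, dvd_mul_left _ _, dvd_sub (dvd_mul_right _ _)
          (even_iff_two_dvd.1 (Int.not_odd_iff_even.1 hm₀)), Or.inr ⟨h00.resolve_right hm₀, rfl⟩⟩
    obtain ⟨i, j, hij⟩ := hp.coprime_iff_not_dvd.2 hℓ12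
    obtain ⟨u, v, huv⟩ := (hp.coprime_iff_not_dvd.2 hℓM).symm
    set x1 := 1 + M * (x₀ - 1) with hx1
    set c := j * (r - W.b₂) * m with hc
    set x := x1 * (v * ℓ) + c * (u * (2 * M)) with hx
    have hxM : M ∣ x - 1 := ⟨(x₀ - 1) + 2 * u * (c - x1), by
      rw [hx]; linear_combination x1 * huv + hx1⟩
    have hx2 : (2 : ℤ) ∣ x - x₀ := by
      obtain ⟨k, hk⟩ := hModd
      exact ⟨k * (x₀ - 1) + u * M * (c - x1), by
        rw [hx]; linear_combination x1 * huv + hx1 + (x₀ - 1) * hk⟩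
    have hxℓ : (ℓ : ℤ) ∣ 12 * x + W.b₂ * m - r * m := ⟨12 * v * (x1 - c) - i * (r - W.b₂) * m, by
      rw [hx]; linear_combination 12 * c * huv + 12 * hc + (r - W.b₂) * m * hij⟩
    have hcop : IsCoprime x m := by
      obtain ⟨e, he⟩ := hxM
      have hxM' : IsCoprime x M := ⟨1, -e, by linear_combination he⟩
      rcases hm2 with rfl | ⟨hx₀, rfl⟩
      · exact hxM'
      · refine IsCoprime.mul_right ?_ hxM'
        have : ¬ (2 : ℤ) ∣ x := fun h => by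
          have := dvd_sub h hx2
          rw [sub_sub_cancel] at this
          exact (Int.not_even_iff_odd.2 hx₀) (even_iff_two_dvd.2 this)
        exact (Int.prime_two.coprime_iff_not_dvd.2 this).symm
    obtain ⟨hψ, hC16⟩ := hpar x m hx2 hm₀
    have hxm : Odd x ∨ Odd m := by
      rcases hm2 with h | ⟨hx₀, -⟩
      · exact Or.inr (h ▸ hModd)
      · refine Or.inl (Int.not_even_iff_odd.1 fun h => ?_)
        have := dvd_sub (even_iff_two_dvd.1 h) hx2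
        rw [sub_sub_cancel] at this
        exact (Int.not_even_iff_odd.2 hx₀) (even_iff_two_dvd.2 this)
    obtain ⟨W', h0, hss, hirr, h33, hcong, hW4, hΔ'⟩ :=
      exists_member W hΔ hW h2 h3 hxm hcop hxM hMm
    have h2' : ¬ (2 : ℤ) ∣ W'.Δ := fun h => by
      have h' : (2 : ℤ) ∣ W.Δ * psiHom W x m ^ 3 := hΔ' ▸ dvd_mul_of_dvd_right h _
      rcases Int.prime_two.dvd_or_dvd h' with h | h
      · exact h2 h
      · exact (Int.not_even_iff_odd.2 hψ) (even_iff_two_dvd.2 (Int.prime_two.dvd_of_dvd_pow h))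
    have h16 : (16 : ℤ) ∣ W'.c₄ := by
      have h := hC16 (81 * W'.c₄) (by rw [← hW4]; ring)
      omega
    refine ⟨W', h0, hss, hirr, h33, hcong, Or.inr ⟨h2', h16, fun h32 => ha ?_, ℓ, hℓ, ?_, h5, ?_⟩⟩
    · have h := hcong 2 Nat.prime_two (by simpa [WeierstrassCurve.IsGoodPrimeFor] using h2)
        (by simpa [WeierstrassCurve.IsGoodPrimeFor] using h2') (by norm_num)
      rw [(apOfModel_two_of_supersingular W' h2' h16).2.2 h32, zero_sub, dvd_neg] at h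
      have := abs_le.1 (abs_apOfModel_two_le W)
      omega
    · rintro rfl
      exact h30 (dvd_mul_of_dvd_left (by norm_num) _)
    · have hd : (ℓ : ℤ) ∣ W'.c₄ * 12 ^ 4 := by
        rw [hW4]
        have := dvd_add (hesseC4_congr (A := W.c₄) (B := W.c₆) (n := ℓ) hxℓ
          (by simp : (ℓ : ℤ) ∣ m - m * 1)) (hr.mul_left (m ^ 4))
        rwa [mul_comm r m, hesseC4_smul, sub_add_cancel] at this
      exact (hp.dvd_or_dvd hd).resolve_right fun h => hℓ12 (hp.dvd_of_dvd_pow h)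

end Fermat.Agent.General
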